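import Mathlib
import Fermat.Agent.PT.Local.Unram
import Fermat.Agent.PT.Local.Closed

/-!
# S36, route R, block K0: the maximal unramified extension `K0 = Qb ^ I_A`

Everything here is deduced from block L of S55 (`Fermat.Agent.PT.Local`).

For a finite place `P : Plc` (`P.A` a valuation subring of `Qb` over the prime `P.ℓ`) and
`K0 P = fixedField P.ine`:

* `exists_zpow` : the value group of `K0` is generated by `v ℓ`;
* `div_mem` : `x ∈ K0`, `x` a non-unit of `A` ⟹ `x / ℓ ∈ A`;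
* `exists_rep` : every residue class of `A` has a representative in `K0`;
* `fixingSubgroup_K0` : `Gal(Qb / K0) = I_A`.

At the end the same statements for a bare `A : ValuationSubring (AlgebraicClosure ℚ)`.
-/

set_option autoImplicit false

namespace Fermat.Agent.S36R.K0L

open Fermat.Agent.PT.Local

noncomputable section

variable (P : Plc)

/-- the maximal unramified extension of `ℚ` at `P` (fixed field of the inertia group). -/
def K0 : Fld := IntermediateField.fixedField P.ine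

theorem mem_K0_iff (x : Qb) : x ∈ K0 P ↔ ∀ σ ∈ P.ine, σ x = x := by
  rw [K0, IntermediateField.mem_fixedField_iff]

theorem lg_bot : lg P ⊥ = P.dec := by
  rw [lg, IntermediateField.fixingSubgroup_bot, inf_top_eq]

theorem li_bot : li P ⊥ = P.ine := by
  rw [li, IntermediateField.fixingSubgroup_bot, inf_top_eq]

theorem v_int_le_one (a : ℤ) : P.v (a : Qb) ≤ 1 :=
  v_le_one_of_isIntegral P (by simpa using (isIntegral_algebraMap (R := ℤ) (A := Qb) (x := a)))

theorem v_intCast_eq_one {a : ℤ} (h : ¬ (P.ℓ : ℤ) ∣ a) : P.v (a : Qb) = 1 := by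
  have h1 : ¬ P.ℓ ∣ a.natAbs := by
    intro h2
    exact h (Int.natCast_dvd.2 h2)
  have h2 := v_natCast_eq_one P h1
  rcases Int.natAbs_eq a with h3 | h3
  · rw [h3]; simpa using h2
  · rw [h3]; simpa using h2

/-- a rational number of valuation `< 1` has valuation `≤ v ℓ`. -/
theorem v_rat_le (r : ℚ) (h : P.v (algebraMap ℚ Qb r) < 1) :
    P.v (algebraMap ℚ Qb r) ≤ P.v (P.ℓ : Qb) := by
  have hr : algebraMap ℚ Qb r = (r.num : Qb) / (r.den : Qb) := by
    conv_lhs => rw [← Rat.num_div_den r]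
    simp
  have hden0 : (r.den : Qb) ≠ 0 := by exact_mod_cast r.den_ne_zero
  have hvden0 : P.v (r.den : Qb) ≠ 0 := (Valuation.ne_zero_iff _).2 hden0
  have hvden : P.v (r.den : Qb) ≤ 1 := by simpa using v_int_le_one P (r.den : ℤ)
  rw [hr, map_div₀] at h ⊢
  by_cases hnum : (P.ℓ : ℤ) ∣ r.num
  · have hd : ¬ P.ℓ ∣ r.den := by
      intro hd
      have h1 : P.ℓ ∣ r.num.natAbs := Int.natCast_dvd.1 hnum
      have h2 := Nat.dvd_gcd h1 hd
      rw [r.reduced] at h2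
      exact P.prime.one_lt.ne' (Nat.dvd_one.1 h2)
    rw [v_natCast_eq_one P hd, div_one]
    obtain ⟨c, hc⟩ := hnum
    rw [hc]
    push_cast
    rw [map_mul]
    calc P.v (P.ℓ : Qb) * P.v (c : Qb) ≤ P.v (P.ℓ : Qb) * 1 := mul_le_mul_right (v_int_le_one P c) _
      _ = _ := mul_one _
  · exfalso
    rw [v_intCast_eq_one P hnum] at h
    have h1 : (1 : P.A.ValueGroup) ≤ 1 / P.v (r.den : Qb) := by
      rw [le_div_iff₀ (zero_lt_iff.2 hvden0), one_mul]
      exact hvden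
    exact absurd h (not_lt.2 h1)

/-- `ℓ` is a uniformizer of the henselisation of `ℚ` at `P`. -/
theorem isUnif_ell : IsUnif P ⊥ (P.ℓ : Qb) := by
  obtain ⟨π, -, hπ⟩ := exists_unif P ⊥
  have hℓ : (P.ℓ : Qb) ∈ lf P ⊥ := natCast_mem _ _
  have h1 : P.v (P.ℓ : Qb) ≤ P.v (π : Qb) := hπ.v_le_of_lt_one hℓ (v_ell_lt_one P)
  obtain ⟨r, hr⟩ := IntermediateField.mem_bot.1 π.2
  have h2 : P.v (π : Qb) ≤ P.v (P.ℓ : Qb) := by
    rw [← hr]
    apply v_rat_le
    rw [hr]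
    exact hπ.2.1
  exact hπ.of_v_eq hℓ (le_antisymm h1 h2)

/-- every element of `K0` lies in a finite unramified extension of the henselisation. -/
theorem exists_mem_lf_unr {x : Qb} (hx : x ∈ K0 P) : ∃ m : ℕ, 0 < m ∧ x ∈ lf P (unr P ⊥ m) := by
  obtain ⟨φ, hφ, hF⟩ := exists_frob P ⊥
  obtain ⟨m, hm, hmx⟩ := Val_exists_pow_fix φ x
  refine ⟨m, hm, (mem_lf_iff P _ x).2 fun g hg => ?_⟩
  have hfd : FiniteDimensional ℚ (IntermediateField.adjoin ℚ {x}) :=
    IntermediateField.adjoin.finiteDimensional (Algebra.IsAlgebraic.isAlgebraic x).isIntegral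
  have hfd2 : FiniteDimensional ℚ (IntermediateField.adjoin ℚ {x} ⊔ unr P ⊥ m : Fld) :=
    IntermediateField.finiteDimensional_sup _ _
  have hg0 : g ∈ lg P ⊥ := lg_anti P bot_le hg
  obtain ⟨j, τ, hτ, u, hu, rfl⟩ := frob_gen P ⊥ hφ hF (IntermediateField.adjoin ℚ {x} ⊔ unr P ⊥ m) hg0
  have hu1 : u ∈ lg P (unr P ⊥ m) := lg_anti P (le_sup_right.trans le_sup_right) hu
  have hux : u x = x := by
    have h1 : u ∈ lg P (IntermediateField.adjoin ℚ {x}) :=
      lg_anti P (le_sup_left.trans le_sup_right) hu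
    exact ((mem_lg_iff P _ u).1 h1).2 x (IntermediateField.mem_adjoin_simple_self ℚ x)
  have hτ1 : τ ∈ lg P (unr P ⊥ m) := li_le_unr P ⊥ m hτ
  have hτx : τ x = x := (mem_K0_iff P x).1 hx τ (by rwa [li_bot] at hτ)
  have hφj : φ ^ j ∈ lg P (unr P ⊥ m) := by
    have h1 := (lg P (unr P ⊥ m)).mul_mem ((lg P (unr P ⊥ m)).mul_mem hg
      ((lg P (unr P ⊥ m)).inv_mem hu1)) ((lg P (unr P ⊥ m)).inv_mem hτ1)
    have h2 : φ ^ j * τ * u * u⁻¹ * τ⁻¹ = φ ^ j := by group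
    rwa [h2] at h1
  obtain ⟨c, rfl⟩ := (Unram_pow_mem_iff P ⊥ hm hφ hF j).1 hφj
  have hpow : ∀ c : ℕ, (φ ^ (m * c)) x = x := by
    intro c
    induction c with
    | zero => simp
    | succ c ih => rw [Nat.mul_succ, pow_add, AlgEquiv.mul_apply, hmx, ih]
  rw [AlgEquiv.mul_apply, AlgEquiv.mul_apply, hux, hτx, hpow]

/-- **(a)** the value group of `K0` is generated by `v ℓ`. -/
theorem exists_zpow {x : Qb} (hx : x ∈ K0 P) (hx0 : x ≠ 0) :
    ∃ n : ℤ, P.v x = P.v (P.ℓ : Qb) ^ n := by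
  obtain ⟨m, hm, hxm⟩ := exists_mem_lf_unr P hx
  exact (isUnif_unr P ⊥ hm (isUnif_ell P)).2.2 x hxm hx0

/-- **(b)** `ℓ` divides every non-unit of `A ∩ K0`. -/
theorem v_le_of_lt_one {x : Qb} (hx : x ∈ K0 P) (h : P.v x < 1) : P.v x ≤ P.v (P.ℓ : Qb) := by
  obtain ⟨m, hm, hxm⟩ := exists_mem_lf_unr P hx
  exact (isUnif_unr P ⊥ hm (isUnif_ell P)).v_le_of_lt_one hxm h

theorem exists_factor_lt_one (a : Qb) (s : Finset Qb) (h : P.v (∏ ζ ∈ s, (a - ζ)) < 1) :
    ∃ ζ ∈ s, P.v (a - ζ) < 1 := by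
  classical
  induction s using Finset.induction_on with
  | empty => simp at h
  | insert b s hb ih =>
    rw [Finset.prod_insert hb, map_mul] at h
    by_cases h1 : P.v (a - b) < 1
    · exact ⟨b, Finset.mem_insert_self _ _, h1⟩
    · have h2 : P.v (∏ ζ ∈ s, (a - ζ)) < 1 := by
        by_contra h3
        exact absurd h (not_lt.2 (Left.one_le_mul (not_lt.1 h1) (not_lt.1 h3)))
      obtain ⟨ζ, hζ, h4⟩ := ih h2
      exact ⟨ζ, Finset.mem_insert_of_mem hζ, h4⟩

/-- roots of unity of order prime to `ℓ` lie in `K0`. -/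
theorem root_mem_K0 {n : ℕ} (hn : ¬ P.ℓ ∣ n) {ζ : Qb} (hζ : ζ ^ n = 1) : ζ ∈ K0 P := by
  rw [mem_K0_iff]
  intro σ hσ
  have hn0 : 0 < n := Nat.pos_of_ne_zero (by rintro rfl; exact hn (dvd_zero _))
  apply eq_of_v_sub_lt_one P hn _ hζ
  · exact ((mem_ine_iff P σ).1 hσ).2 ζ (Unram_mem_A P (Unram_v_eq_one P hn0 hζ).le)
  · rw [← map_pow, hζ, map_one]

/-- **(c)** every residue class of `A` is represented by `0` or by a root of unity of order prime
to `ℓ`; in particular by an element of `K0`. -/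
theorem exists_rep {a : Qb} (ha : P.v a ≤ 1) :
    ∃ b ∈ K0 P, P.v b ≤ 1 ∧ P.v (a - b) < 1 := by
  have hfd : FiniteDimensional ℚ (IntermediateField.adjoin ℚ {a}) :=
    IntermediateField.adjoin.finiteDimensional (Algebra.IsAlgebraic.isAlgebraic a).isIntegral
  set K : Fld := IntermediateField.adjoin ℚ {a} with hK
  have haK : a ∈ lf P K := le_lf P K (IntermediateField.mem_adjoin_simple_self ℚ a)
  have h1 := v_pow_rq_sub P K haK ha
  have hn : 0 < rq P K ^ 1 - 1 := Unram_pos P K one_pos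
  have hnd : ¬ P.ℓ ∣ rq P K ^ 1 - 1 := Unram_not_dvd P K one_pos
  rw [pow_one] at hn hnd
  obtain ⟨ζ₀, hζ₀⟩ := Unram_exists_prim hn
  have h2 : a ^ rq P K - a = a * ∏ ζ ∈ Polynomial.nthRootsFinset (rq P K - 1) (1 : Qb), (a - ζ) := by
    have h3 := congrArg (Polynomial.eval a) (Polynomial.X_pow_sub_one_eq_prod hn hζ₀)
    rw [Polynomial.eval_prod] at h3
    simp only [Polynomial.eval_sub, Polynomial.eval_pow, Polynomial.eval_X, Polynomial.eval_one,
      Polynomial.eval_C] at h3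
    rw [← h3]
    have h4 : rq P K = (rq P K - 1) + 1 := by omega
    conv_lhs => rw [h4, pow_succ]
    ring
  rw [h2, map_mul] at h1
  by_cases ha1 : P.v a < 1
  · exact ⟨0, zero_mem _, by simp, by simpa using ha1⟩
  · have h5 : P.v (∏ ζ ∈ Polynomial.nthRootsFinset (rq P K - 1) (1 : Qb), (a - ζ)) < 1 := by
      by_contra h6
      exact absurd h1 (not_lt.2 (Left.one_le_mul (not_lt.1 ha1) (not_lt.1 h6)))
    obtain ⟨ζ, hζ, h7⟩ := exists_factor_lt_one P a _ h5
    rw [Polynomial.mem_nthRootsFinset hn] at hζ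
    exact ⟨ζ, root_mem_K0 P hnd hζ, (Unram_v_eq_one P hn hζ).le, h7⟩

theorem lf_bot_le_K0 : lf P ⊥ ≤ K0 P := by
  intro x hx
  rw [mem_K0_iff]
  intro σ hσ
  exact (mem_lf_iff P ⊥ x).1 hx σ (by rw [lg_bot]; exact ine_le_dec P hσ)

/-- **(d)** the inertia group is closed: `Gal(Qb / K0) = I_A`. -/
theorem fixingSubgroup_K0 : (K0 P).fixingSubgroup = P.ine := by
  apply le_antisymm
  · intro σ hσ
    rw [IntermediateField.mem_fixingSubgroup_iff] at hσ
    have hdec : σ ∈ P.dec := by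
      rw [← lg_bot]
      exact mem_lg_of_fixes P ⊥ fun y hy => hσ y (lf_bot_le_K0 P hy)
    rw [mem_ine_iff]
    refine ⟨hdec, fun x hx => ?_⟩
    obtain ⟨b, hb, -, hxb⟩ := exists_rep P ((P.A.valuation_le_one_iff x).2 hx)
    have e : σ x - x = σ (x - b) - (x - b) := by rw [map_sub, hσ b hb]; ring
    rw [e]
    exact Valuation.map_sub_lt _ (by rw [v_map P hdec]; exact hxb) hxb
  · intro σ hσ
    rw [IntermediateField.mem_fixingSubgroup_iff]
    intro x hx
    exact (mem_K0_iff P x).1 hx σ hσ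

end

/-! ### The same statements for a bare valuation subring -/

section bare

variable (A : ValuationSubring (AlgebraicClosure ℚ)) {q : ℕ} (hq : q.Prime)
  (hA : A.LiesOverPrime q)

include hq hA

/-- **(a)** -/
theorem exists_zpow' {x : AlgebraicClosure ℚ}
    (hx : x ∈ IntermediateField.fixedField (A.inertiaSubgroupIn ℚ)) (hx0 : x ≠ 0) :
    ∃ n : ℤ, A.valuation x = A.valuation (q : AlgebraicClosure ℚ) ^ n :=
  exists_zpow ⟨A, q, hq, hA⟩ hx hx0

/-- **(b)** -/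
theorem div_mem' {x : AlgebraicClosure ℚ}
    (hx : x ∈ IntermediateField.fixedField (A.inertiaSubgroupIn ℚ)) (hx1 : x ∈ A.nonunits) :
    x / (q : AlgebraicClosure ℚ) ∈ A := by
  have h1 := v_le_of_lt_one ⟨A, q, hq, hA⟩ hx ((ValuationSubring.mem_nonunits_iff A).1 hx1)
  have h0 : A.valuation (q : AlgebraicClosure ℚ) ≠ 0 := v_ell_ne_zero ⟨A, q, hq, hA⟩
  rw [← A.valuation_le_one_iff, map_div₀, div_le_one₀ (zero_lt_iff.2 h0)]
  exact h1

/-- **(c)** -/
theorem exists_rep' {a : AlgebraicClosure ℚ} (ha : a ∈ A) :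
    ∃ b ∈ IntermediateField.fixedField (A.inertiaSubgroupIn ℚ), b ∈ A ∧ a - b ∈ A.nonunits := by
  obtain ⟨b, hb, hb1, hab⟩ := exists_rep ⟨A, q, hq, hA⟩ ((A.valuation_le_one_iff a).2 ha)
  exact ⟨b, hb, (A.valuation_le_one_iff b).1 hb1, (ValuationSubring.mem_nonunits_iff A).2 hab⟩

/-- **(d1)** -/
theorem fixingSubgroup_fixedField_inertia :
    (IntermediateField.fixedField (A.inertiaSubgroupIn ℚ)).fixingSubgroup =
      A.inertiaSubgroupIn ℚ :=
  fixingSubgroup_K0 ⟨A, q, hq, hA⟩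

/-- **(d2)** inertia preserves `A`. -/
theorem inertia_map_mem_iff {σ : AlgebraicClosure ℚ ≃ₐ[ℚ] AlgebraicClosure ℚ}
    (hσ : σ ∈ A.inertiaSubgroupIn ℚ) (x : AlgebraicClosure ℚ) : σ x ∈ A ↔ x ∈ A :=
  (mem_dec_iff ⟨A, q, hq, hA⟩ σ).1 (ine_le_dec ⟨A, q, hq, hA⟩ hσ) x

/-- **(d3)** inertia preserves the valuation and acts trivially on the residue field. -/
theorem inertia_sub_mem_nonunits {σ : AlgebraicClosure ℚ ≃ₐ[ℚ] AlgebraicClosure ℚ}
    (hσ : σ ∈ A.inertiaSubgroupIn ℚ) {x : AlgebraicClosure ℚ} (hx : x ∈ A) :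
    σ x - x ∈ A.nonunits :=
  (ValuationSubring.mem_nonunits_iff A).2 (((mem_ine_iff ⟨A, q, hq, hA⟩ σ).1 hσ).2 x hx)

theorem inertia_valuation {σ : AlgebraicClosure ℚ ≃ₐ[ℚ] AlgebraicClosure ℚ}
    (hσ : σ ∈ A.inertiaSubgroupIn ℚ) (x : AlgebraicClosure ℚ) :
    A.valuation (σ x) = A.valuation x :=
  v_map ⟨A, q, hq, hA⟩ (ine_le_dec ⟨A, q, hq, hA⟩ hσ) x

end bare

end Fermat.Agent.S36R.K0L
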