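import Fermat.Agent.GAL.RED.Lift

/-!
# S36, block K0: the abstract lattice lemma

`R` a Cartesian reduction datum of `F / K`; `K0 ⊆ K` a subfield which is "discretely valued with
uniformiser `π` and the same residue field"; `S ⊆ F` an additive subgroup stable under `K0`
("the functions defined over `K0`") all of whose nonzero elements have norm in `|π|^ℤ`.
If the finite dimensional `K`-subspace `V` of `F` is spanned by `V ∩ S`, then every element of the
reduction of `V` is the reduction of an element of `V ∩ S ∩ O`.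
-/

set_option autoImplicit false

namespace Fermat.Agent.S36R

open Fermat.Agent.GAL.RED

variable {K F k Fb : Type*} [Field K] [Field F] [Algebra K F] [Field k] [Field Fb] [Algebra k Fb]

/-- Orthonormality: lifts of `k`-independent elements are an orthonormal family. -/
theorem LatticeAbs_coeff_mem (R : RedData K F k Fb) {m : ℕ} {x : Fin m → F}
    (hx : ∀ i, x i ∈ R.O) (hli : LinearIndependent k (fun i => R.red (x i)))
    (e : Fin m → K) (he : ∑ i, e i • x i ∈ R.O) (i : Fin m) : e i ∈ R.A := by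
  by_cases h0 : e = 0
  · rw [h0]; exact R.A.zero_mem
  obtain ⟨a, ha0, ha, j, hj⟩ := R.exists_scale_family e h0
  have h1 : R.red (∑ i, (a * e i) • x i) = ∑ i, R.redA (a * e i) • R.red (x i) := by
    rw [R.red_sum _ _ (fun i _ => R.smul_mem (ha i) (hx i))]
    exact Finset.sum_congr rfl fun i _ => R.red_smul (ha i) (hx i)
  have h2 : R.red (∑ i, (a * e i) • x i) ≠ 0 := by
    rw [h1]
    intro h
    exact hj (Fintype.linearIndependent_iff.1 hli _ h j)
  have h3 : ∑ i, (a * e i) • x i = a • ∑ i, e i • x i := by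
    rw [Finset.smul_sum]
    exact Finset.sum_congr rfl fun i _ => mul_smul _ _ _
  rw [h3] at h2
  rcases R.A.mem_or_inv_mem a with h | h
  · by_cases h4 : R.redA a = 0
    · exact absurd (by rw [R.red_smul h he, h4, zero_smul]) h2
    · have h5 := (R.redA_ne_zero_iff.1 h4).2.2
      have : e i = a⁻¹ * (a * e i) := by field_simp
      rw [this]
      exact R.A.mul_mem _ _ h5 (ha i)
  · have : e i = a⁻¹ * (a * e i) := by field_simp
    rw [this]
    exact R.A.mul_mem _ _ h (ha i)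

/-- **The lattice lemma.** -/
theorem exists_fixed_lift (R : RedData K F k Fb) (hC : R.IsCartesian)
    (K0 : Subfield K) (S : AddSubgroup F) (hS : ∀ c ∈ K0, ∀ x ∈ S, c • x ∈ S)
    (π : K) (hπK : π ∈ K0) (hπ0 : π ≠ 0) (hπ1 : R.A.valuation π < 1)
    (hD : ∀ x ∈ S, x ≠ 0 → ∃ n : ℤ, R.red (π ^ n • x) ≠ 0)
    (hRes : ∀ a ∈ R.A, ∃ a0 ∈ K0, a0 ∈ R.A ∧ R.redA a0 = R.redA a)
    (hArch : ∀ b : K, ∃ s : ℕ, R.A.valuation (b * π ^ s) < 1)
    (V : Submodule K F) [Module.Finite K V]
    (hV : V ≤ Submodule.span K {x | x ∈ V ∧ x ∈ S})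
    {u : F} (huV : u ∈ V) (huO : u ∈ R.O) :
    ∃ u0 ∈ V, u0 ∈ S ∧ u0 ∈ R.O ∧ R.red u0 = R.red u := by
  classical
  set T : Submodule k Fb :=
    Submodule.span k {h | ∃ x ∈ V, x ∈ S ∧ x ∈ R.O ∧ R.red x = h} with hTdef
  have hT : ∀ h ∈ T, ∃ x ∈ V, x ∈ S ∧ x ∈ R.O ∧ R.red x = h := by
    intro h hh
    induction hh using Submodule.span_induction with
    | mem y hy => exact hy
    | zero => exact ⟨0, V.zero_mem, S.zero_mem, R.O.zero_mem, R.red_zero⟩
    | add y z _ _ hy hz =>
      obtain ⟨x1, h1, h2, h3, rfl⟩ := hy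
      obtain ⟨x2, h1', h2', h3', rfl⟩ := hz
      exact ⟨x1 + x2, V.add_mem h1 h1', S.add_mem h2 h2', R.O.add_mem _ _ h3 h3',
        R.red_add h3 h3'⟩
    | smul c y _ hy =>
      obtain ⟨x1, h1, h2, h3, rfl⟩ := hy
      obtain ⟨a, ha, rfl⟩ := R.exists_liftA c
      obtain ⟨a0, ha0, ha0A, ha0r⟩ := hRes a ha
      exact ⟨a0 • x1, V.smul_mem _ h1, hS _ ha0 _ h2, R.smul_mem ha0A h3, by
        rw [R.red_smul ha0A h3, ha0r]⟩
  have hTle : T ≤ R.redSub V := by
    intro h hh
    obtain ⟨x, h1, -, h3, h4⟩ := hT h hh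
    exact ⟨x, h1, h3, h4⟩
  by_contra hcon
  have huT : R.red u ∉ T := fun h => hcon (hT _ h)
  have := R.finite_redSub V
  have hfinT : Module.Finite k T := Module.Finite.of_injective (Submodule.inclusion hTle)
    (Submodule.inclusion_injective hTle)
  have hlt : Module.finrank k T < Module.finrank K V := by
    rw [← hC V inferInstance]
    apply Submodule.finrank_lt_finrank_of_lt
    exact lt_of_le_of_ne hTle fun h => huT (h ▸ ⟨u, huV, huO, rfl⟩)
  set m := Module.finrank k T with hm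
  let bT : Module.Basis (Fin m) k T := Module.finBasis k T
  choose x hxV hxS hxO hxr using fun i => hT (bT i) (bT i).2
  have hli : LinearIndependent k (fun i => R.red (x i)) := by
    have h1 := bT.linearIndependent.map' T.subtype (Submodule.ker_subtype T)
    have h2 : (fun i => R.red (x i)) = T.subtype ∘ bT := by
      funext i
      exact hxr i
    rw [h2]
    exact h1
  have hspanT : ∀ h ∈ T, ∃ γ : Fin m → k, h = ∑ i, γ i • R.red (x i) := by
    intro h hh
    refine ⟨fun i => bT.repr ⟨h, hh⟩ i, ?_⟩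
    have h1 := bT.sum_repr ⟨h, hh⟩
    have h2 := congrArg (T.subtype) h1
    rw [map_sum] at h2
    simp only [map_smul, Submodule.subtype_apply] at h2
    refine h2.symm.trans ?_
    exact Finset.sum_congr rfl fun i _ => by rw [hxr i]
  have hmemT : ∀ γ : Fin m → k, ∑ i, γ i • R.red (x i) ∈ T := fun γ =>
    T.sum_mem fun i _ => T.smul_mem _ (by rw [hxr i]; exact (bT i).2)
  have hliK : LinearIndependent K x := R.linearIndependent_of_red hxO hli
  -- a new vector
  obtain ⟨y, hyV, hyS, hy⟩ : ∃ y ∈ V, y ∈ S ∧ y ∉ Submodule.span K (Set.range x) := by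
    by_contra hno
    push Not at hno
    have h1 : V ≤ Submodule.span K (Set.range x) :=
      hV.trans (Submodule.span_le.2 fun z hz => hno z hz.1 hz.2)
    have := Module.Finite.span_of_finite K (Set.finite_range x)
    have h2 := Submodule.finrank_mono h1
    rw [finrank_span_eq_card hliK, Fintype.card_fin] at h2
    omega
  -- the bound
  have hli' : LinearIndependent K (Fin.cons y x : Fin (m + 1) → F) :=
    linearIndependent_finCons.2 ⟨hliK, hy⟩
  obtain ⟨z, hzU, hzO, hzT⟩ : ∃ z ∈ Submodule.span K (Set.range (Fin.cons y x : Fin (m + 1) → F)),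
      z ∈ R.O ∧ R.red z ∉ T := by
    by_contra hno
    push Not at hno
    have h1 : R.redSub (Submodule.span K (Set.range (Fin.cons y x : Fin (m + 1) → F))) ≤ T := by
      rintro _ ⟨z, h1, h2, rfl⟩
      exact hno z h1 h2
    have h2 := Submodule.finrank_mono h1
    rw [hC _ (Module.Finite.span_of_finite K (Set.finite_range _)),
      finrank_span_eq_card hli', Fintype.card_fin] at h2
    omega
  obtain ⟨d, rfl⟩ := (Submodule.mem_span_range_iff_exists_fun K).1 hzU
  rw [Fin.sum_univ_succ] at hzO hzT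
  simp only [Fin.cons_zero, Fin.cons_succ] at hzO hzT
  set b := d 0 with hb
  set a : Fin m → K := fun i => d i.succ with ha
  have hkey : ∀ c : Fin m → K, b • (y + ∑ i, c i • x i) ∈ R.O →
      R.red (b • (y + ∑ i, c i • x i)) ≠ 0 := by
    intro c h1 h2
    have h3 : ∑ i, (a i - b * c i) • x i = (b • y + ∑ i, a i • x i) - b • (y + ∑ i, c i • x i) := by
      simp only [sub_smul, Finset.sum_sub_distrib, mul_smul, smul_add, ← Finset.smul_sum]
      abel
    have h4 : ∑ i, (a i - b * c i) • x i ∈ R.O := by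
      rw [h3]; exact R.O.sub_mem hzO h1
    have h5 := LatticeAbs_coeff_mem R hxO hli _ h4
    apply hzT
    have h6 : R.red (b • y + ∑ i, a i • x i) = R.red (∑ i, (a i - b * c i) • x i) := by
      rw [h3, R.red_sub hzO h1, h2, sub_zero]
    rw [h6, R.red_sum _ _ (fun i _ => R.smul_mem (h5 i) (hxO i))]
    have : ∑ i, R.red ((a i - b * c i) • x i) = ∑ i, R.redA (a i - b * c i) • R.red (x i) :=
      Finset.sum_congr rfl fun i _ => R.red_smul (h5 i) (hxO i)
    rw [this]
    exact hmemT _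
  obtain ⟨s, hs⟩ := hArch b
  have hne : ∀ c : Fin m → K, y + ∑ i, c i • x i ≠ 0 := by
    intro c h
    apply hy
    rw [add_eq_zero_iff_eq_neg] at h
    rw [h]
    exact Submodule.neg_mem _ (Submodule.sum_mem _ fun i _ =>
      Submodule.smul_mem _ _ (Submodule.subset_span ⟨i, rfl⟩))
  let E : ℤ → Prop := fun e => ∃ c : Fin m → K, (∀ i, c i ∈ K0) ∧
    R.red (π ^ (-e) • (y + ∑ i, c i • x i)) ≠ 0
  have hbdd : ∀ e, E e → e ≤ s := by
    rintro e ⟨c, -, hc⟩
    by_contra hlt
    push Not at hlt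
    have h1 : R.A.valuation (b * π ^ e) < 1 := by
      have h2 : b * π ^ e = (b * π ^ s) * π ^ (e - s) := by
        rw [mul_assoc, ← zpow_natCast, ← zpow_add₀ hπ0]
        congr 2
        ring
      rw [h2, map_mul]
      have h3 : R.A.valuation (π ^ (e - s)) ≤ 1 := by
        obtain ⟨t, ht⟩ := Int.eq_ofNat_of_zero_le (by omega : 0 ≤ e - s)
        rw [ht, zpow_natCast, map_pow]
        exact pow_le_one₀ zero_le hπ1.le
      calc R.A.valuation (b * π ^ s) * R.A.valuation (π ^ (e - s))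
          ≤ R.A.valuation (b * π ^ s) * 1 := by gcongr
        _ < 1 := by rwa [mul_one]
    have h2 : b * π ^ e ∈ R.A := (R.A.valuation_le_one_iff _).1 h1.le
    have h3 : b • (y + ∑ i, c i • x i) = (b * π ^ e) • (π ^ (-e) • (y + ∑ i, c i • x i)) := by
      rw [smul_smul, mul_assoc, ← zpow_add₀ hπ0, add_neg_cancel, zpow_zero, mul_one]
    have h4 := R.mem_of_red_ne_zero hc
    refine hkey c (h3 ▸ R.smul_mem h2 h4) ?_
    rw [h3, R.red_smul h2 h4, (R.redA_eq_zero_iff h2).2 h1, zero_smul]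
  have hex : ∃ e, E e := by
    obtain ⟨n, hn⟩ := hD y hyS (by simpa using hne 0)
    exact ⟨-n, 0, fun _ => K0.zero_mem, by simpa using hn⟩
  obtain ⟨e, ⟨c, hcK, hc⟩, hmax⟩ := Int.exists_greatest_of_bdd ⟨s, hbdd⟩ hex
  -- improve
  set ys := π ^ (-e) • (y + ∑ i, c i • x i) with hys
  have hπz : ∀ n : ℤ, π ^ n ∈ K0 := fun n => zpow_mem hπK n
  have hy'S : ∀ c : Fin m → K, (∀ i, c i ∈ K0) → y + ∑ i, c i • x i ∈ S := fun c hc =>
    S.add_mem hyS (S.sum_mem fun i _ => hS _ (hc i) _ (hxS i))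
  have hy'V : ∀ c : Fin m → K, y + ∑ i, c i • x i ∈ V := fun c =>
    V.add_mem hyV (V.sum_mem fun i _ => V.smul_mem _ (hxV i))
  have hysO : ys ∈ R.O := R.mem_of_red_ne_zero hc
  have hysT : R.red ys ∈ T := Submodule.subset_span
    ⟨ys, V.smul_mem _ (hy'V c), hS _ (hπz _) _ (hy'S c hcK), hysO, rfl⟩
  obtain ⟨γ, hγ⟩ := hspanT _ hysT
  have hlift : ∀ i, ∃ a0 ∈ K0, a0 ∈ R.A ∧ R.redA a0 = γ i := by
    intro i
    obtain ⟨a, ha, har⟩ := R.exists_liftA (γ i)
    obtain ⟨a0, h1, h2, h3⟩ := hRes a ha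
    exact ⟨a0, h1, h2, h3.trans har⟩
  choose g hgK hgA hgr using hlift
  set c' : Fin m → K := fun i => c i - π ^ e * g i with hc'
  have hc'K : ∀ i, c' i ∈ K0 := fun i => K0.sub_mem (hcK i) (K0.mul_mem (hπz _) (hgK i))
  have hw : π ^ (-e) • (y + ∑ i, c' i • x i) = ys - ∑ i, g i • x i := by
    rw [hys, hc']
    simp only [sub_smul, Finset.sum_sub_distrib, mul_smul, ← Finset.smul_sum, smul_add, smul_sub]
    rw [smul_smul (π ^ (-e)) (π ^ e), ← zpow_add₀ hπ0, neg_add_cancel, zpow_zero, one_smul]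
    abel
  have hsumO : ∑ i, g i • x i ∈ R.O := R.O.sum_mem fun i _ => R.smul_mem (hgA i) (hxO i)
  have hwO : π ^ (-e) • (y + ∑ i, c' i • x i) ∈ R.O := by
    rw [hw]; exact R.O.sub_mem hysO hsumO
  have hw0 : R.red (π ^ (-e) • (y + ∑ i, c' i • x i)) = 0 := by
    rw [hw, R.red_sub hysO hsumO, hγ, R.red_sum _ _ (fun i _ => R.smul_mem (hgA i) (hxO i)),
      sub_eq_zero]
    exact Finset.sum_congr rfl fun i _ => by rw [R.red_smul (hgA i) (hxO i), hgr i]
  obtain ⟨n, hn⟩ := hD _ (hy'S c' hc'K) (hne c')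
  have hn1 : e + 1 ≤ -n := by
    by_contra hlt
    push Not at hlt
    obtain ⟨t, ht⟩ := Int.eq_ofNat_of_zero_le (by omega : 0 ≤ n + e)
    have h1 : π ^ n • (y + ∑ i, c' i • x i)
        = π ^ t • (π ^ (-e) • (y + ∑ i, c' i • x i)) := by
      rw [smul_smul, ← zpow_natCast, ← ht, ← zpow_add₀ hπ0]
      congr 2
      ring
    have h2 : π ^ t ∈ R.A := R.A.pow_mem ((R.A.valuation_le_one_iff _).1 hπ1.le) t
    rw [h1, R.red_smul h2 hwO, hw0, smul_zero] at hn
    exact hn rfl
  have := hmax (-n) ⟨c', hc'K, by rwa [neg_neg]⟩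
  omega

end Fermat.Agent.S36R
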