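import Fermat.Agent.S36R.K0.Defs
import Fermat.Agent.GAL.Tors.Desc.Main

/-!
# S36, route R, block K0: fixed points of inertia on `FF Kbar N`, Hilbert 90

* `mem_range_bc0_iff` (D2): `FF Kbar N ^ I_A = FF (K0 A) N`;
* `exists_bc0_rep` (D3): an `I_A`-invariant class of `KV Kbar (FF Kbar N) m` is represented by a
  unit of `FF (K0 A) N`;
* `mk_bc0_eq_zero` (D5): a constant times an `m`-th power gives the trivial class.
-/

set_option autoImplicit false

namespace Fermat.Agent.S36R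

open AlgebraicCurve ModularCurve Fermat.Agent.GAL Fermat.Agent.GAL.Desc Fermat.Agent.S24
  Fermat.Agent.Lib.RR

variable (A : ValuationSubring Kbar)

/-- (D2) The fixed field of `I_A` in `FF Kbar N` is `FF (K0 A) N`. -/
theorem mem_range_bc0_iff (N : ℕ) (y : FF Kbar N) :
    y ∈ Set.range (bc0 A N) ↔
      ∀ τ ∈ A.inertiaSubgroupIn ℚ, arithmeticGalois (modularFunctionFieldFull N) τ • y = y := by
  constructor
  · rintro ⟨x, rfl⟩ τ hτ
    apply Subtype.ext
    rw [coe_arithmeticGalois_smul, coe_bc0]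
    ext n
    rw [coeffMap_coeff, coeffMap_coeff]
    exact mem_K0.mp ((x : LaurentSeries (K0 A)).coeff n).2 τ hτ
  · intro h
    apply mem_range_bc_of_coeff
    intro n
    have hn : (y : LaurentSeries Kbar).coeff n ∈ K0 A := by
      rw [mem_K0]
      intro τ hτ
      have h1 := congrArg (fun z : FF Kbar N => (z : LaurentSeries Kbar).coeff n) (h τ hτ)
      simp only [coe_arithmeticGalois_smul, coeffMap_coeff] at h1
      exact h1
    exact ⟨⟨_, hn⟩, rfl⟩

theorem Fixed_order_eq_of_coeff {K : Type*} [Field K] {s : LaurentSeries K} {n : ℤ}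
    (h1 : s.coeff n ≠ 0) (h2 : ∀ m < n, s.coeff m = 0) : s.order = n := by
  have hs : s ≠ 0 := fun h => h1 (by rw [h]; rfl)
  refine le_antisymm (HahnSeries.order_le_of_coeff_ne_zero h1) ?_
  by_contra hlt
  exact hs (HahnSeries.coeff_order_eq_zero.mp (h2 _ (not_le.mp hlt)))

theorem order_jF_ne_zero (N : ℕ) : ((jF N : FF Kbar N) : LaurentSeries Kbar).order ≠ 0 := by
  have hcoe : ((jF N : FF Kbar N) : LaurentSeries Kbar) = coeffEmb Kbar jq := rfl
  have h4 : (coeffEmb Kbar jq).order = -1 := by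
    apply Fixed_order_eq_of_coeff
    · rw [coeffEmb_coeff]
      have := coeff_jq_pow_self 1
      rw [pow_one] at this
      simp only [Nat.cast_one] at this
      rw [this]
      simp
    · intro k hk
      rw [coeffEmb_coeff]
      have := coeff_jq_pow_of_lt (n := 1) (m := k) (by simpa using hk)
      rw [pow_one] at this
      rw [this]
      simp
  rw [hcoe, h4]
  norm_num

/-- (D3) **Hilbert 90.** An `I_A`-invariant class is represented by a function with coefficients in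
`K0 A`. -/
theorem exists_bc0_rep (N : ℕ) [NeZero N] {m : ℕ} (hm : m ≠ 0) (x : KV Kbar (FF Kbar N) m)
    (hx : ∀ τ ∈ A.inertiaSubgroupIn ℚ, τ • x = x) :
    ∃ (f : (FF (K0 A) N)ˣ)
      (hf : Units.map (bc0 A N : FF (K0 A) N →* FF Kbar N) f ∈ kummerUnits Kbar (FF Kbar N) m),
      KV.mk ⟨_, hf⟩ = x := by
  have h1 := isFF_FF_Kbar N
  obtain ⟨u, rfl⟩ := KV.mk_surjective x
  obtain ⟨g, hg⟩ := exists_canonical hm (jF N : FF Kbar N) (order_jF_ne_zero N) u
  set w : FF Kbar N := (((u : (FF Kbar N)ˣ)) : FF Kbar N) * (g : FF Kbar N) ^ m with hw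
  obtain ⟨v, hv⟩ := (mem_range_bc0_iff A N w).mpr (fun τ hτ => hg τ (hx τ hτ))
  have hw0 : w ≠ 0 := mul_ne_zero (Units.ne_zero _) (pow_ne_zero _ (Units.ne_zero _))
  have hv0 : v ≠ 0 := by
    rintro rfl
    rw [map_zero] at hv
    exact hw0 hv.symm
  have hunit : Units.map (bc0 A N : FF (K0 A) N →* FF Kbar N) (Units.mk0 v hv0)
      = (u : (FF Kbar N)ˣ) * g ^ m := by
    apply Units.ext
    simpa [hw] using hv
  have hvk : Units.map (bc0 A N : FF (K0 A) N →* FF Kbar N) (Units.mk0 v hv0)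
      ∈ kummerUnits Kbar (FF Kbar N) m := by
    rw [hunit]
    exact mul_mem u.2 (pow_mem_kummerUnits m g)
  refine ⟨Units.mk0 v hv0, hvk, ?_⟩
  rw [KV.mk_eq_mk_iff]
  refine ⟨g, ?_⟩
  show g ^ m * (u : (FF Kbar N)ˣ) = Units.map _ (Units.mk0 v hv0)
  rw [hunit, mul_comm]

/-- (D5) A constant times an `m`-th power is trivial in `KV Kbar (FF Kbar N) m`. -/
theorem mk_bc0_eq_zero (N : ℕ) {m : ℕ} (hm : m ≠ 0) (f : (FF (K0 A) N)ˣ)
    (hf : Units.map (bc0 A N : FF (K0 A) N →* FF Kbar N) f ∈ kummerUnits Kbar (FF Kbar N) m)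
    (c : K0 A) (h : FF (K0 A) N)
    (hfc : (f : FF (K0 A) N) = algebraMap (K0 A) (FF (K0 A) N) c * h ^ m) :
    KV.mk (⟨_, hf⟩ : kummerUnits Kbar (FF Kbar N) m) = 0 := by
  obtain ⟨b, hb⟩ := IsAlgClosed.exists_pow_nat_eq (c : Kbar) (Nat.pos_of_ne_zero hm)
  have hf0 : (f : FF (K0 A) N) ≠ 0 := f.ne_zero
  set y : FF Kbar N := algebraMap Kbar (FF Kbar N) b * bc0 A N h with hy
  have hym : y ^ m = bc0 A N (f : FF (K0 A) N) := by
    rw [hy, mul_pow, ← map_pow, hb, hfc, map_mul, bc0_algebraMap, map_pow]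
  have hy0 : y ≠ 0 := by
    intro h0
    rw [h0, zero_pow hm] at hym
    exact hf0 ((map_eq_zero (bc0 A N)).mp hym.symm)
  rw [KV.mk_eq_zero_iff]
  exact ⟨Units.mk0 y hy0, Units.ext (by simpa using hym)⟩

end Fermat.Agent.S36R
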