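import Fermat.Agent.S36R.K0.DVRL
import Fermat.Agent.GAL.Tors.Desc.BaseChange
import Fermat.Agent.S24.DefsB

/-!
# S36, route R, block K0: definitions

`A` a valuation subring of `Kbar = AlgebraicClosure ℚ` (over a prime `q`), `I_A` its inertia group.

* `K0 A`  : the fixed field of `I_A` (`= K0L.KI A`, reducible);
* `O0 A`  : `A ∩ K0 A` (`= K0L.OI A`, reducible), a DVR with uniformiser `q` and residue field that
  of `A`: see `K0/DVRL.lean` (`K0L.isDiscreteValuationRing_OI`, `K0L.maximalIdeal_OI`,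
  `K0L.bijective_residueField_map`) and `K0/BlockL.lean`;
* `bc0 A N` : the coefficientwise embedding `FF (K0 A) N → FF Kbar N`.
-/

set_option autoImplicit false

namespace Fermat.Agent.S36R

open AlgebraicCurve ModularCurve Fermat.Agent.GAL Fermat.Agent.GAL.Desc Fermat.Agent.S24

noncomputable section

variable (A : ValuationSubring Kbar)

/-- The fixed field of the inertia group of `A`. -/
abbrev K0 : IntermediateField ℚ Kbar := K0L.KI A

variable {A} in
theorem mem_K0 {x : Kbar} : x ∈ K0 A ↔ ∀ τ ∈ A.inertiaSubgroupIn ℚ, τ x = x :=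
  IntermediateField.mem_fixedField_iff _ _

/-- `A ∩ K0`. -/
abbrev O0 : ValuationSubring (K0 A) := K0L.OI A

variable {A} in
theorem mem_O0 {x : K0 A} : x ∈ O0 A ↔ (x : Kbar) ∈ A := Iff.rfl

/-! ### shortcut instances
The generic instance search for `Algebra ↥(K0 A) ↥(FF ↥(K0 A) N)` etc. times out, because `K0 A` is
itself an intermediate field (`IntermediateField.instAlgebraSubtypeMem` ... are tried first). The
following instances are (reducibly) the generic ones. -/

section Shortcuts

/-- the generic instance. -/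
@[reducible] def Defs_algFF (K : Type) [Field K] [Algebra ℚ K] (N : ℕ) : Algebra K ↥(FF K N) :=
  inferInstance

/-- the generic instance. -/
@[reducible] def Defs_algOFF (K : Type) [Field K] [Algebra ℚ K] (O : ValuationSubring K) (N : ℕ) :
    Algebra ↥O ↥(FF K N) := inferInstance

/-- the generic instance. -/
theorem Defs_towerOFF (K : Type) [Field K] [Algebra ℚ K] (O : ValuationSubring K) (N : ℕ) :
    IsScalarTower ↥O K ↥(FF K N) := IsScalarTower.of_algebraMap_eq fun _ => rfl

instance (priority := 3000) instAlgebraK0FF (N : ℕ) : Algebra ↥(K0 A) ↥(FF ↥(K0 A) N) :=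
  Defs_algFF _ N

instance (priority := 3000) instModuleK0FF (N : ℕ) : Module ↥(K0 A) ↥(FF ↥(K0 A) N) :=
  (instAlgebraK0FF A N).toModule

instance (priority := 3000) instSMulK0FF (N : ℕ) : SMul ↥(K0 A) ↥(FF ↥(K0 A) N) :=
  (instAlgebraK0FF A N).toSMul

instance (priority := 3000) instAlgebraO0FF (N : ℕ) : Algebra ↥(O0 A) ↥(FF ↥(K0 A) N) :=
  Defs_algOFF _ (O0 A) N

instance (priority := 3000) instModuleO0FF (N : ℕ) : Module ↥(O0 A) ↥(FF ↥(K0 A) N) :=
  (instAlgebraO0FF A N).toModule

instance (priority := 3000) instSMulO0FF (N : ℕ) : SMul ↥(O0 A) ↥(FF ↥(K0 A) N) :=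
  (instAlgebraO0FF A N).toSMul

instance (priority := 3000) instIsScalarTowerO0K0FF (N : ℕ) :
    IsScalarTower ↥(O0 A) ↥(K0 A) ↥(FF ↥(K0 A) N) := Defs_towerOFF _ (O0 A) N

end Shortcuts

/-- The coefficientwise embedding `F_{K0}(N) → F_{Kbar}(N)`. -/
def bc0 (N : ℕ) : FF (K0 A) N →+* FF Kbar N :=
  bc (algebraMap (K0 A) Kbar) (modularFunctionFieldFull N)

@[simp] theorem coe_bc0 (N : ℕ) (x : FF (K0 A) N) :
    ((bc0 A N x : FF Kbar N) : LaurentSeries Kbar)
      = coeffMap (algebraMap (K0 A) Kbar) (x : LaurentSeries (K0 A)) := rfl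

theorem bc0_injective (N : ℕ) : Function.Injective (bc0 A N) := (bc0 A N).injective

theorem bc0_algebraMap (N : ℕ) (a : K0 A) :
    bc0 A N (algebraMap (K0 A) (FF (K0 A) N) a) = algebraMap Kbar (FF Kbar N) (a : Kbar) :=
  bc_algebraMap _ _ a

end

end Fermat.Agent.S36R
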