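import Fermat.Agent.S36.StepA.Tame
import Fermat.Agent.S36R.K0.Defs
import Fermat.Agent.DR.Conc.Level

/-!
# S36, block K0: FACT D (discreteness of the Gauss norm on `FF (K0 A) N`)

A nonzero modular function with coefficients in `K0 A = Kbar ^ I_A` has Gauss norm in `|q|^ℤ`.
-/

set_option autoImplicit false

noncomputable section

namespace Fermat.Agent.S36R

open ModularCurve AlgebraicCurve Fermat.Agent.S24 Fermat.Agent.GAL Fermat.Agent.GAL.Gauss
  Fermat.Agent.GAL.Desc Fermat.Agent.S36.StepA Fermat.Agent.DR.Conc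

variable (A : ValuationSubring Kbar)

/-- bounded series with coefficients in `K0 A`. -/
def IsT0 (s : LaurentSeries Kbar) : Prop := (∀ n, s.coeff n ∈ K0 A) ∧ IsBdd A s

variable {A}

theorem isT0_C {c : Kbar} (hc : c ∈ K0 A) : IsT0 A (HahnSeries.C c) := by
  refine ⟨fun n => ?_, isBdd_C c⟩
  rw [HahnSeries.C_apply, HahnSeries.coeff_single]
  split_ifs
  · exact hc
  · exact zero_mem _

variable (A) in
/-- the ring of bounded series with coefficients in `K0 A`. -/
def t0Ring : Subring (LaurentSeries Kbar) where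
  carrier := {s | IsT0 A s}
  mul_mem' := fun {s t} h h' => ⟨fun n => by
    rw [HahnSeries.coeff_mul]
    exact sum_mem fun ij _ => mul_mem (h.1 _) (h'.1 _), h.2.mul h'.2⟩
  one_mem' := by
    have : (1 : LaurentSeries Kbar) = HahnSeries.C 1 := (map_one _).symm
    rw [this]
    exact isT0_C (one_mem _)
  add_mem' := fun {s t} h h' => ⟨fun n => by
    rw [HahnSeries.coeff_add]
    exact add_mem (h.1 _) (h'.1 _), h.2.add h'.2⟩
  zero_mem' := by
    have : (0 : LaurentSeries Kbar) = HahnSeries.C 0 := (map_zero _).symm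
    rw [this]
    exact isT0_C (zero_mem _)
  neg_mem' := fun {s} h => ⟨fun n => by
    rw [HahnSeries.coeff_neg]
    exact neg_mem (h.1 _), h.2.neg⟩

variable (A) in
/-- Gauss norm in `|q|^ℤ`. -/
def NormQ (q : ℕ) (s : LaurentSeries Kbar) : Prop :=
  ∃ n : ℤ, ∃ r, r ≠ 0 ∧ Red A (HahnSeries.C ((q : Kbar) ^ n) * s) r

theorem NormQ.mul {q : ℕ} (hq : q.Prime) {s t : LaurentSeries Kbar} (hs : NormQ A q s)
    (ht : NormQ A q t) : NormQ A q (s * t) := by
  obtain ⟨n, r, hr, h⟩ := hs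
  obtain ⟨n', r', hr', h'⟩ := ht
  have hq0 : (q : Kbar) ≠ 0 := by exact_mod_cast hq.ne_zero
  refine ⟨n + n', r * r', mul_ne_zero hr hr', ?_⟩
  have := h.mul h'
  rwa [mul_mul_mul_comm, ← map_mul, ← zpow_add₀ hq0] at this

theorem NormQ.inv {q : ℕ} {s : LaurentSeries Kbar} (hs : NormQ A q s) : NormQ A q s⁻¹ := by
  obtain ⟨n, r, hr, h⟩ := hs
  refine ⟨-n, r⁻¹, inv_ne_zero hr, ?_⟩
  have := h.inv hr
  rwa [mul_inv, ← map_inv₀, ← zpow_neg] at this

/-- **Discreteness.** -/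
theorem IsT0.normQ {q : ℕ} (hq : q.Prime) (hA : A.LiesOverPrime q)
    {s : LaurentSeries Kbar} (hs : IsT0 A s) (h0 : s ≠ 0) : NormQ A q s := by
  obtain ⟨hsK, c, hc, hsc⟩ := hs
  let P : PT.Local.Plc := ⟨A, q, hq, hA⟩
  have hπ0 : 0 < A.valuation (q : Kbar) := zero_lt_iff.2 (PT.Local.v_ell_ne_zero P)
  have hπ1 : A.valuation (q : Kbar) < 1 := PT.Local.v_ell_lt_one P
  have hq0 : (q : Kbar) ≠ 0 := by exact_mod_cast hq.ne_zero
  obtain ⟨n₁, hn₁⟩ : ∃ n, s.coeff n ≠ 0 := by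
    by_contra hcon
    exact h0 (HahnSeries.ext (funext fun n => by
      by_contra hn
      exact hcon ⟨n, hn⟩))
  obtain ⟨e, he⟩ := PT.Local.exists_pow_le P hc
  have he' : A.valuation (q : Kbar) ^ e ≤ A.valuation c := he
  have hc0 : 0 < A.valuation c := zero_lt_iff.2 ((Valuation.ne_zero_iff _).2 hc)
  obtain ⟨k₀, ⟨n₀, hn₀, hk₀⟩, hmin⟩ := Int.exists_least_of_bdd
    (P := fun k : ℤ => ∃ n, s.coeff n ≠ 0 ∧ A.valuation (s.coeff n) = A.valuation (q : Kbar) ^ k)
    ⟨-(e : ℤ), by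
      rintro k ⟨n, -, hk⟩
      have h1 : A.valuation c * A.valuation (s.coeff n) ≤ 1 := by
        rw [← map_mul]
        exact (A.valuation_le_one_iff _).2 (hsc n)
      have h2 : A.valuation (q : Kbar) ^ ((e : ℤ) + k) ≤ 1 := by
        rw [zpow_add₀ hπ0.ne', zpow_natCast, ← hk]
        exact le_trans (by gcongr) h1
      rw [zpow_le_one_iff_right_of_lt_one₀ hπ0 hπ1] at h2
      omega⟩
    (by
      obtain ⟨k, hk⟩ := K0L.exists_zpow' A hq hA (hsK n₁) hn₁
      exact ⟨k, n₁, hn₁, hk⟩)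
  have hdiv : ∀ n, (HahnSeries.C ((q : Kbar) ^ (-k₀)) * s).coeff n ∈ A := by
    intro n
    rw [HahnSeries.C_mul_eq_smul, HahnSeries.coeff_smul, smul_eq_mul]
    by_cases hn : s.coeff n = 0
    · rw [hn, mul_zero]; exact A.zero_mem
    · obtain ⟨k, hk⟩ := K0L.exists_zpow' A hq hA (hsK n) hn
      have hle := hmin k ⟨n, hn, hk⟩
      rw [← A.valuation_le_one_iff, map_mul, hk, map_zpow₀, ← zpow_add₀ hπ0.ne',
        zpow_le_one_iff_right_of_lt_one₀ hπ0 hπ1]
      omega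
  refine ⟨-k₀, pA A (liftA _ hdiv), ?_, ?_⟩
  · intro hz
    have h2 := congrArg (fun x => HahnSeries.coeff x n₀) hz
    simp only [pA_coeff, HahnSeries.coeff_zero] at h2
    rw [IsLocalRing.residue_eq_zero_iff, ValuationSubring.valuation_lt_one_iff] at h2
    have h3 : (((liftA _ hdiv).coeff n₀ : ↥A) : Kbar) = (q : Kbar) ^ (-k₀) * s.coeff n₀ := by
      show (HahnSeries.C ((q : Kbar) ^ (-k₀)) * s).coeff n₀ = _
      rw [HahnSeries.C_mul_eq_smul, HahnSeries.coeff_smul, smul_eq_mul]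
    rw [h3, map_mul, hk₀, map_zpow₀, ← zpow_add₀ hπ0.ne', neg_add_cancel, zpow_zero] at h2
    exact lt_irrefl _ h2
  · have hred := red_iA (A := A) (liftA _ hdiv)
    rwa [iA_liftA] at hred

theorem normQ_of_mem_closure {q : ℕ} (hq : q.Prime) (hA : A.LiesOverPrime q)
    {s : LaurentSeries Kbar} (hs : s ∈ Subfield.closure (t0Ring A : Set (LaurentSeries Kbar)))
    (h0 : s ≠ 0) : NormQ A q s := by
  rw [Subfield.mem_closure_iff, Subring.closure_eq] at hs
  obtain ⟨a, ha, b, hb, rfl⟩ := hs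
  have ha0 : a ≠ 0 := fun h => h0 (by rw [h, zero_div])
  have hb0 : b ≠ 0 := fun h => h0 (by rw [h, div_zero])
  rw [div_eq_mul_inv]
  exact (IsT0.normQ hq hA ha ha0).mul hq (IsT0.normQ hq hA hb hb0).inv

theorem coeffEmb_mem_closure (N : ℕ) {f : LaurentSeries ℚ} (hf : f ∈ modularFunctionFieldFull N) :
    coeffEmb Kbar f ∈ Subfield.closure (t0Ring A : Set (LaurentSeries Kbar)) := by
  induction hf using IntermediateField.adjoin_induction with
  | mem y hy =>
    obtain ⟨d, hd, -, rfl⟩ := hy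
    apply Subfield.subset_closure
    refine ⟨fun n => ?_, ?_⟩
    · rw [coeffEmb_coeff]
      exact IntermediateField.algebraMap_mem _ _
    · rw [FNAdjoin.coeffEmb_qExpand]
      exact isTame_jq.2.qExpand d
  | algebraMap c =>
    rw [FNAdjoin.coeffEmb_algebraMap, algebraMap_eq_C]
    exact Subfield.subset_closure (isT0_C (IntermediateField.algebraMap_mem _ _))
  | add x y _ _ hx hy => rw [map_add]; exact add_mem hx hy
  | inv x _ hx => rw [map_inv₀]; exact inv_mem hx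
  | mul x y _ _ hx hy => rw [map_mul]; exact mul_mem hx hy

theorem coe_bc0_mem_closure (N : ℕ) (y : FF (K0 A) N) :
    ((bc0 A N y : FF Kbar N) : LaurentSeries Kbar) ∈
      Subfield.closure (t0Ring A : Set (LaurentSeries Kbar)) := by
  rw [coe_bc0]
  obtain ⟨y, hy⟩ := y
  show coeffMap (algebraMap (K0 A) Kbar) y ∈ _
  rw [mem_laurentBaseChange_iff] at hy
  induction hy using Subfield.closure_induction with
  | mem z hz =>
    rcases hz with ⟨c, rfl⟩ | ⟨f, hf, rfl⟩
    · rw [algebraMap_laurentSeries_eq_single, coeffMap_single, ← HahnSeries.C_apply]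
      exact Subfield.subset_closure (isT0_C c.2)
    · have : coeffMap (algebraMap (K0 A) Kbar) (coeffEmb (K0 A) f) = coeffEmb Kbar f := by
        rw [coeffEmb, coeffMap_coeffMap]
        rfl
      rw [this]
      exact coeffEmb_mem_closure N hf
  | one => rw [map_one]; exact one_mem _
  | add x y _ _ hx hy => rw [map_add]; exact add_mem hx hy
  | neg x _ hx => rw [map_neg]; exact neg_mem hx
  | inv x _ hx => rw [map_inv₀]; exact inv_mem hx
  | mul x y _ _ hx hy => rw [map_mul]; exact mul_mem hx hy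

/-- **FACT D.** The Gauss norm of a nonzero element of `FF (K0 A) N` is in `|q|^ℤ`. -/
theorem gauss_K0 {q : ℕ} (hq : q.Prime) (hA : A.LiesOverPrime q) (N : ℕ) (y : FF (K0 A) N)
    (hy : y ≠ 0) :
    ∃ n : ℤ, ∃ h : HahnSeries.C ((q : Kbar) ^ n) * ((bc0 A N y : FF Kbar N) : LaurentSeries Kbar)
      ∈ gRing A, gRes A ⟨_, h⟩ ≠ 0 := by
  have h0 : ((bc0 A N y : FF Kbar N) : LaurentSeries Kbar) ≠ 0 := by
    intro h
    apply hy
    apply bc0_injective A N
    rw [map_zero]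
    exact Subtype.ext h
  obtain ⟨n, r, hr, h, e⟩ := normQ_of_mem_closure hq hA (coe_bc0_mem_closure N y) h0
  exact ⟨n, h, e ▸ hr⟩

section Level

variable (M : ℕ) [NeZero M] (hM : ((M : ℕ) : IsLocalRing.ResidueField ↥A) ≠ 0)

/-- FACT D for the reduction datum `RM` of level `M`. -/
theorem red_zpow_smul_bc0_ne_zero {q : ℕ} (hq : q.Prime) (hA : A.LiesOverPrime q)
    (y : FF (K0 A) M) (hy : y ≠ 0) :
    ∃ n : ℤ, (RM A M hM).red (((q : Kbar) ^ n) • (bc0 A M y : FN M)) ≠ 0 := by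
  obtain ⟨n, h, hr⟩ := gauss_K0 hq hA M y hy
  refine ⟨n, ?_⟩
  have e : ((((q : Kbar) ^ n) • (bc0 A M y : FN M) : FN M) : LaurentSeries Kbar)
      = HahnSeries.C ((q : Kbar) ^ n) * ((bc0 A M y : FF Kbar M) : LaurentSeries Kbar) := by
    rw [Algebra.smul_def, ← algebraMap_eq_C]
    rfl
  have h' : ((((q : Kbar) ^ n) • (bc0 A M y : FN M) : FN M) : LaurentSeries Kbar) ∈ gRing A := by
    rw [e]; exact h
  intro h0
  apply hr
  have h1 := coe_RM_red A M hM _ h'
  rw [h0] at h1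
  have h2 : (⟨_, h'⟩ : ↥(gRing A)) = ⟨_, h⟩ := Subtype.ext e
  rw [← h2, ← h1]
  rfl

/-- Corollary: an integral element of `FF (K0 A) M` with zero reduction is divisible by `q`. -/
theorem bc0_div_mem_O {q : ℕ} (hq : q.Prime) (hA : A.LiesOverPrime q)
    (y : FF (K0 A) M) (hyO : (bc0 A M y : FN M) ∈ (RM A M hM).O)
    (hy0 : (RM A M hM).red (bc0 A M y : FN M) = 0) :
    ((q : Kbar)⁻¹ • (bc0 A M y : FN M)) ∈ (RM A M hM).O := by
  by_cases hy : y = 0
  · rw [hy, map_zero, smul_zero]; exact (RM A M hM).O.zero_mem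
  obtain ⟨n, hn⟩ := red_zpow_smul_bc0_ne_zero M hM hq hA y hy
  have hq0 : (q : Kbar) ≠ 0 := by exact_mod_cast hq.ne_zero
  have hRA : (RM A M hM).A = A := gaussRedData'_A A M hM _ _
  have hqA : (q : Kbar) ∈ (RM A M hM).A := by
    rw [hRA]; exact natCast_mem _ q
  have hn1 : n ≤ -1 := by
    by_contra hlt
    push Not at hlt
    obtain ⟨t, ht⟩ := Int.eq_ofNat_of_zero_le (by omega : 0 ≤ n)
    rw [ht, zpow_natCast, (RM A M hM).red_smul (pow_mem hqA t) hyO, hy0, smul_zero] at hn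
    exact hn rfl
  obtain ⟨t, ht⟩ := Int.eq_ofNat_of_zero_le (by omega : 0 ≤ -1 - n)
  have e : (q : Kbar)⁻¹ • (bc0 A M y : FN M)
      = ((q : Kbar) ^ t) • (((q : Kbar) ^ n) • (bc0 A M y : FN M)) := by
    rw [smul_smul, ← zpow_natCast, ← ht, ← zpow_add₀ hq0]
    congr 1
    rw [← zpow_neg_one]
    congr 1
    ring
  rw [e]
  exact (RM A M hM).smul_mem (pow_mem hqA t) ((RM A M hM).mem_of_red_ne_zero hn)

end Level

end Fermat.Agent.S36R
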