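import Mathlib

/-!
# S36, route R, block K0, leaf L0 (pure Mathlib): Artin's lemma on independence of conjugates
-/

set_option autoImplicit false

namespace Fermat.Agent.S36R

/-- **Artin's lemma.** `G` a group of automorphisms of the field `L`. If `b₁, …, bₙ ∈ L` are linearly
independent over the fixed field `L^G` (stated by hand: no nontrivial relation with `G`-invariant
coefficients), then the functions `σ ↦ σ (bᵢ)` on `G` are linearly independent over `L`.

Proof. Either from `FixedPoints.linearIndependent_smul_of_linearIndependent` (Mathlib.FieldTheory.Fixed;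
`b` is injective by `hb`), or directly: suppose `c ≠ 0`, choose such a `c` with the minimal number of
nonzero entries (strong induction on `(Finset.univ.filter fun i => c i ≠ 0).card`), scale so that
`c i₀ = 1`. For `τ ∈ G` apply `τ` to the relation for `τ⁻¹ * σ`: `∑ τ (c i) * σ (b i) = 0` for all
`σ ∈ G`; the difference `τ (c i) - c i` is a relation with fewer nonzero entries, hence zero: all
`c i` are `G`-invariant; the relation for `σ = 1` and `hb` give `c = 0`. -/
theorem artin_indep {k L : Type*} [Field k] [Field L] [Algebra k L] (G : Subgroup (L ≃ₐ[k] L))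
    {n : ℕ} (b c : Fin n → L)
    (hb : ∀ a : Fin n → L, (∀ i, ∀ σ ∈ G, σ (a i) = a i) → ∑ i, b i * a i = 0 → a = 0)
    (hc : ∀ σ ∈ G, ∑ i, c i * σ (b i) = 0) : c = 0 := by
  classical
  have h1 : LinearIndependent (FixedPoints.subfield G L) b := by
    rw [Fintype.linearIndependent_iff]
    intro g hg i
    have h2 := hb (fun i => (g i : L)) (fun i σ hσ => (g i).2 ⟨σ, hσ⟩) (by
      rw [← hg]
      refine Finset.sum_congr rfl fun i _ => ?_
      rw [mul_comm]
      rfl)
    exact Subtype.ext (congrFun h2 i)
  have hinj : Function.Injective b := h1.injective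
  have h2 : LinearIndepOn (FixedPoints.subfield G L) id
      ((Finset.univ.image b : Finset L) : Set L) := by
    rw [Finset.coe_image, Finset.coe_univ, Set.image_univ]
    exact h1.linearIndepOn_id
  have h3 := FixedPoints.linearIndependent_smul_of_linearIndependent G L h2
  have h4 : LinearIndependent L (fun i : Fin n => MulAction.toFun G L (b i)) := by
    have h5 := LinearIndependent.comp h3
      (fun i : Fin n => (⟨b i, by simp⟩ : ((Finset.univ.image b : Finset L) : Set L)))
      (fun i j hij => hinj (congrArg Subtype.val hij))
    exact h5
  rw [Fintype.linearIndependent_iff] at h4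
  funext i
  refine h4 c ?_ i
  funext σ
  rw [Finset.sum_apply]
  exact hc σ.1 σ.2

end Fermat.Agent.S36R
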