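import Mathlib
import Fermat.Agent.S36R.K0.BlockL

/-!
# S36, route R, block K0: `O0 = A ∩ K0` is a DVR with uniformiser `q` and residue field `A / 𝔪_A`

No new structure: `KI A = fixedField (A.inertiaSubgroupIn ℚ)` and
`OI A = A.comap (algebraMap (KI A) Qbar)` are reducible abbreviations.
-/

set_option autoImplicit false

namespace Fermat.Agent.S36R.K0L

noncomputable section

/-- the fixed field of inertia -/
abbrev KI (A : ValuationSubring (AlgebraicClosure ℚ)) :
    IntermediateField ℚ (AlgebraicClosure ℚ) :=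
  IntermediateField.fixedField (A.inertiaSubgroupIn ℚ)

/-- the valuation ring `A ∩ K0` -/
abbrev OI (A : ValuationSubring (AlgebraicClosure ℚ)) : ValuationSubring (KI A) :=
  A.comap (algebraMap (KI A) (AlgebraicClosure ℚ))

variable (A : ValuationSubring (AlgebraicClosure ℚ))

theorem mem_OI (x : KI A) : x ∈ OI A ↔ (x : AlgebraicClosure ℚ) ∈ A := Iff.rfl

/-- the inclusion `O0 → A` -/
def incl : OI A →+* A where
  toFun x := ⟨((x : KI A) : AlgebraicClosure ℚ), x.2⟩
  map_one' := rfl
  map_mul' _ _ := rfl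
  map_zero' := rfl
  map_add' _ _ := rfl

@[simp] theorem coe_incl (x : OI A) :
    ((incl A x : A) : AlgebraicClosure ℚ) = ((x : KI A) : AlgebraicClosure ℚ) := rfl

theorem isUnit_OI_iff (x : OI A) :
    IsUnit x ↔ A.valuation ((x : KI A) : AlgebraicClosure ℚ) = 1 := by
  constructor
  · intro h
    have h1 : IsUnit (incl A x) := h.map (incl A)
    exact (A.valuation_eq_one_iff _).1 h1
  · intro h
    have hx0 : ((x : KI A) : AlgebraicClosure ℚ) ≠ 0 := by
      intro h0
      rw [h0, map_zero] at h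
      exact zero_ne_one h
    have hx0' : (x : KI A) ≠ 0 := by
      intro h0
      apply hx0
      rw [h0]
      rfl
    have hinv : (x : KI A)⁻¹ ∈ OI A := by
      rw [mem_OI, ← A.valuation_le_one_iff]
      push_cast
      rw [map_inv₀, h, inv_one]
    refine isUnit_iff_exists_inv.2 ⟨⟨(x : KI A)⁻¹, hinv⟩, ?_⟩
    apply Subtype.ext
    exact mul_inv_cancel₀ hx0'

instance isLocalHom_incl : IsLocalHom (incl A) where
  map_nonunit x hx := (isUnit_OI_iff A x).2 ((A.valuation_eq_one_iff _).1 hx)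

theorem mem_maximalIdeal_OI_iff (x : OI A) :
    x ∈ IsLocalRing.maximalIdeal (OI A) ↔ A.valuation ((x : KI A) : AlgebraicClosure ℚ) < 1 := by
  rw [IsLocalRing.mem_maximalIdeal, mem_nonunits_iff, isUnit_OI_iff]
  have h1 : A.valuation ((x : KI A) : AlgebraicClosure ℚ) ≤ 1 := (A.valuation_le_one_iff _).2 x.2
  exact ⟨fun h => lt_of_le_of_ne h1 h, fun h => h.ne⟩

variable {q : ℕ} (hq : q.Prime) (hA : A.LiesOverPrime q)

include hq hA

theorem valuation_q_lt_one : A.valuation (q : AlgebraicClosure ℚ) < 1 :=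
  (ValuationSubring.mem_nonunits_iff A).1 hA

theorem q_ne_zero : (q : OI A) ≠ 0 := by
  exact_mod_cast hq.ne_zero

/-- the maximal ideal of `O0` is generated by `q`. -/
theorem maximalIdeal_OI : IsLocalRing.maximalIdeal (OI A) = Ideal.span {(q : OI A)} := by
  apply le_antisymm
  · intro x hx
    rw [mem_maximalIdeal_OI_iff] at hx
    have h1 := div_mem' A hq hA (x : KI A).2 ((ValuationSubring.mem_nonunits_iff A).2 hx)
    rw [Ideal.mem_span_singleton]
    have h2 : (x : KI A) / (q : KI A) ∈ OI A := by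
      rw [mem_OI]
      push_cast
      exact h1
    refine ⟨⟨(x : KI A) / (q : KI A), h2⟩, ?_⟩
    apply Subtype.ext
    have hq0 : (q : KI A) ≠ 0 := by exact_mod_cast hq.ne_zero
    change (x : KI A) = (q : KI A) * ((x : KI A) / (q : KI A))
    field_simp
  · rw [Ideal.span_singleton_le_iff_mem, mem_maximalIdeal_OI_iff]
    exact valuation_q_lt_one A hq hA

theorem prime_q : Prime (q : OI A) := by
  rw [← Ideal.span_singleton_prime (q_ne_zero A hq hA), ← maximalIdeal_OI A hq hA]
  exact (IsLocalRing.maximalIdeal.isMaximal _).isPrime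

theorem irreducible_q : Irreducible (q : OI A) := (prime_q A hq hA).irreducible

/-- every nonzero element of `O0` is a unit times a power of `q`. -/
theorem exists_associated_pow {x : OI A} (hx : x ≠ 0) : ∃ n : ℕ, Associated ((q : OI A) ^ n) x := by
  have hx0' : (x : KI A) ≠ 0 := fun h => hx (Subtype.ext h)
  have hx0 : ((x : KI A) : AlgebraicClosure ℚ) ≠ 0 := by
    intro h
    exact hx0' (Subtype.ext h)
  obtain ⟨n, hn⟩ := exists_zpow' A hq hA (x : KI A).2 hx0
  have hq0 : (q : AlgebraicClosure ℚ) ≠ 0 := by exact_mod_cast hq.ne_zero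
  have hvq0 : A.valuation (q : AlgebraicClosure ℚ) ≠ 0 := (Valuation.ne_zero_iff _).2 hq0
  have hvq1 := valuation_q_lt_one A hq hA
  have hn0 : 0 ≤ n := by
    by_contra hneg
    rw [not_le] at hneg
    have h1 : A.valuation ((x : KI A) : AlgebraicClosure ℚ) ≤ 1 := (A.valuation_le_one_iff _).2 x.2
    rw [hn] at h1
    have h2 : (1 : A.ValueGroup) < A.valuation (q : AlgebraicClosure ℚ) ^ n := by
      obtain ⟨k, hk⟩ : ∃ k : ℕ, n = -((k : ℤ) + 1) := ⟨(-n - 1).toNat, by omega⟩
      rw [hk, zpow_neg, one_lt_inv₀ (zero_lt_iff.2 (zpow_ne_zero _ hvq0))]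
      have : A.valuation (q : AlgebraicClosure ℚ) ^ ((k : ℤ) + 1) =
          A.valuation (q : AlgebraicClosure ℚ) ^ (k + 1) := by
        rw [← zpow_natCast]; norm_cast
      rw [this]
      exact pow_lt_one₀ zero_le hvq1 (Nat.succ_ne_zero k)
    exact absurd h1 (not_le.2 h2)
  obtain ⟨k, rfl⟩ := Int.eq_ofNat_of_zero_le hn0
  rw [zpow_natCast] at hn
  refine ⟨k, ?_⟩
  have hqK : (q : KI A) ≠ 0 := by exact_mod_cast hq.ne_zero
  have hu : (x : KI A) / (q : KI A) ^ k ∈ OI A := by
    rw [mem_OI, ← A.valuation_le_one_iff]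
    push_cast
    rw [map_div₀, map_pow, hn, div_self (pow_ne_zero _ hvq0)]
  have hunit : IsUnit (⟨(x : KI A) / (q : KI A) ^ k, hu⟩ : OI A) := by
    rw [isUnit_OI_iff]
    push_cast
    rw [map_div₀, map_pow, hn, div_self (pow_ne_zero _ hvq0)]
  obtain ⟨u, hu'⟩ := hunit
  refine ⟨u, ?_⟩
  rw [hu']
  apply Subtype.ext
  change (q : KI A) ^ k * ((x : KI A) / (q : KI A) ^ k) = (x : KI A)
  field_simp

/-- **`O0 = A ∩ K0` is a discrete valuation ring.** -/
theorem isDiscreteValuationRing_OI : IsDiscreteValuationRing (OI A) :=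
  IsDiscreteValuationRing.ofHasUnitMulPowIrreducibleFactorization
    ⟨(q : OI A), irreducible_q A hq hA, fun hx => exists_associated_pow A hq hA hx⟩

/-- **The residue field of `O0` is the residue field of `A`.** -/
theorem bijective_residueField_map :
    Function.Bijective (IsLocalRing.ResidueField.map (incl A)) := by
  refine ⟨RingHom.injective _, fun y => ?_⟩
  obtain ⟨a, rfl⟩ := IsLocalRing.residue_surjective y
  obtain ⟨b, hb, hbA, hab⟩ := exists_rep' A hq hA a.2
  refine ⟨IsLocalRing.residue _ (⟨⟨b, hb⟩, hbA⟩ : OI A), ?_⟩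
  rw [IsLocalRing.ResidueField.map_residue, ← sub_eq_zero, ← map_sub,
    IsLocalRing.residue_eq_zero_iff, ← neg_mem_iff (S := Ideal A), A.valuation_lt_one_iff]
  have := (ValuationSubring.mem_nonunits_iff A).1 hab
  simpa using this

end

end Fermat.Agent.S36R.K0L
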