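import Fermat.Agent.GAL.Tors.Desc.PlacesRestrict

/-!
# S36, route R, block K0, leaf L1: for an ALGEBRAIC extension of constants `L / K` every element of
`F_L` is an `L`-linear combination of elements of `F_K`.
-/

set_option autoImplicit false

namespace Fermat.Agent.S36R

open AlgebraicCurve ModularCurve Fermat.Agent.GAL Fermat.Agent.GAL.Desc

variable {K L : Type*} [Field K] [Field L] [Algebra ℚ K] [Algebra ℚ L] [Algebra K L]
  [Algebra.IsAlgebraic K L] (F₀ : IntermediateField ℚ (LaurentSeries ℚ))

/-- Proof. `S := spanBC ι F₀` is closed under multiplication (`BaseChange_mul_mem_spanBC`) and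
contains `1`; make `F_L` an `F_K`-algebra through `bc ι F₀` (`RingHom.toAlgebra`, locally) and `S` a
`Subalgebra F_K F_L`. Every element of `S` is algebraic over `F_K`: a constant `b : L` is algebraic
over `K` hence (map the polynomial) over `F_K`; sums and products of algebraic elements are
algebraic (`IsAlgebraic.add`, `.mul`; span induction). So `S` is closed under inverses
(`Subalgebra.inv_mem_of_algebraic`). Conclude with `exists_span_div`: every `x = P / Q`. -/
theorem spanBC_eq_top : spanBC (algebraMap K L) F₀ = ⊤ := by
  classical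
  let _ : Algebra (laurentBaseChange K F₀) (laurentBaseChange L F₀) :=
    (bc (algebraMap K L) F₀).toAlgebra
  let S : Subalgebra (laurentBaseChange K F₀) (laurentBaseChange L F₀) :=
    { carrier := spanBC (algebraMap K L) F₀
      mul_mem' := fun ha hb => BaseChange_mul_mem_spanBC (algebraMap K L) F₀ ha hb
      add_mem' := fun ha hb => add_mem ha hb
      algebraMap_mem' := fun r => Submodule.subset_span ⟨r, rfl⟩ }
  have hconst : ∀ b : L, IsAlgebraic (laurentBaseChange K F₀)
      (algebraMap L (laurentBaseChange L F₀) b) := by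
    intro b
    obtain ⟨p, hp0, hp⟩ := Algebra.IsAlgebraic.isAlgebraic (R := K) b
    refine ⟨p.map (algebraMap K (laurentBaseChange K F₀)),
      (Polynomial.map_ne_zero_iff (algebraMap K _).injective).2 hp0, ?_⟩
    rw [Polynomial.aeval_def, Polynomial.eval₂_map]
    have hcomp : (algebraMap (laurentBaseChange K F₀) (laurentBaseChange L F₀)).comp
        (algebraMap K (laurentBaseChange K F₀)) =
        (algebraMap L (laurentBaseChange L F₀)).comp (algebraMap K L) :=
      RingHom.ext fun a => bc_algebraMap (algebraMap K L) F₀ a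
    rw [hcomp, ← Polynomial.hom_eval₂, ← Polynomial.aeval_def, hp, map_zero]
  have hSalg : ∀ x ∈ spanBC (algebraMap K L) F₀, IsAlgebraic (laurentBaseChange K F₀) x := by
    intro x hx
    induction hx using Submodule.span_induction with
    | mem y hy =>
      obtain ⟨g, rfl⟩ := hy
      exact isAlgebraic_algebraMap g
    | zero => exact isAlgebraic_zero
    | add y z _ _ hy hz => exact hy.add hz
    | smul b y _ hy =>
      rw [Algebra.smul_def]
      exact (hconst b).mul hy
  rw [eq_top_iff]
  intro x _
  obtain ⟨P, hP, Q, hQ, hQ0, rfl⟩ := exists_span_div (algebraMap K L) F₀ x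
  have hinv : Q⁻¹ ∈ S := S.inv_mem_of_algebraic (x := ⟨Q, hQ⟩) (hSalg Q hQ)
  rw [div_eq_mul_inv]
  exact BaseChange_mul_mem_spanBC (algebraMap K L) F₀ hP hinv

/-- Normal form (from `exists_indep_repr`). -/
theorem exists_indep_repr_top (y : laurentBaseChange L F₀) :
    ∃ (n : ℕ) (b : Fin n → L) (g : Fin n → laurentBaseChange K F₀),
      (∀ c : Fin n → K, ∑ i, b i * algebraMap K L (c i) = 0 → c = 0) ∧
        y = ∑ i, b i • bc (algebraMap K L) F₀ (g i) :=
  exists_indep_repr (algebraMap K L) F₀ (by rw [spanBC_eq_top]; trivial)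

end Fermat.Agent.S36R
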