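import Fermat.Agent.S36R.K0.Fixed
import Fermat.Agent.S36R.K0.Artin
import Fermat.Agent.S36R.K0.SpanTop
import Fermat.Agent.GAL.RED.Defs

/-!
# S36, block K0: Galois descent of subspaces

A `Kbar`-subspace of `FF Kbar N` which is stable under the inertia group `I_A` is spanned by its
`I_A`-fixed vectors, i.e. by its elements coming from `FF (K0 A) N`.
The Riemann-Roch spaces `L(a (x)_∞)`, `x` fixed by `I_A`, are `I_A`-stable.
-/

set_option autoImplicit false

namespace Fermat.Agent.S36R

open AlgebraicCurve ModularCurve Fermat.Agent.GAL Fermat.Agent.GAL.Desc Fermat.Agent.S24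
  Fermat.Agent.Lib.RR

variable (A : ValuationSubring Kbar)

theorem gal_smul_smul (N : ℕ) (τ : Kbar ≃ₐ[ℚ] Kbar) (b : Kbar) (y : FF Kbar N) :
    arithmeticGalois (modularFunctionFieldFull N) τ • (b • y)
      = τ b • (arithmeticGalois (modularFunctionFieldFull N) τ • y) := by
  rw [Algebra.smul_def, Algebra.smul_def, smul_mul', SemilinearAut.smul_algebraMap]
  rfl

theorem gal_smul_bc0 (N : ℕ) {τ : Kbar ≃ₐ[ℚ] Kbar} (hτ : τ ∈ A.inertiaSubgroupIn ℚ)
    (g : FF (K0 A) N) :
    arithmeticGalois (modularFunctionFieldFull N) τ • bc0 A N g = bc0 A N g :=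
  (mem_range_bc0_iff A N _).1 ⟨g, rfl⟩ τ hτ

/-- **Descent.** -/
theorem le_span_fixed (N : ℕ) (V : Submodule Kbar (FF Kbar N))
    (hV : ∀ τ ∈ A.inertiaSubgroupIn ℚ, ∀ x ∈ V,
      arithmeticGalois (modularFunctionFieldFull N) τ • x ∈ V) :
    V ≤ Submodule.span Kbar {x | x ∈ V ∧ x ∈ Set.range (bc0 A N)} := by
  classical
  intro x hx
  obtain ⟨n, b, g, hb, rfl⟩ :=
    exists_indep_repr_top (K := K0 A) (L := Kbar) (modularFunctionFieldFull N) x
  change ∑ i, b i • bc0 A N (g i) ∈ V at hx
  change ∑ i, b i • bc0 A N (g i) ∈ _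
  -- the conjugates
  have hconj : ∀ τ ∈ A.inertiaSubgroupIn ℚ, ∑ i, τ (b i) • bc0 A N (g i) ∈ V := by
    intro τ hτ
    have h1 := hV τ hτ _ hx
    rw [Finset.smul_sum] at h1
    convert h1 using 1
    exact Finset.sum_congr rfl fun i _ => by rw [gal_smul_smul, gal_smul_bc0 A N hτ]
  let Φ : (Fin n → Kbar) →ₗ[Kbar] FF Kbar N :=
    { toFun := fun c => ∑ i, c i • bc0 A N (g i)
      map_add' := fun c d => by
        simp only [Pi.add_apply, add_smul, Finset.sum_add_distrib]
      map_smul' := fun a c => by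
        simp only [Pi.smul_apply, smul_eq_mul, mul_smul, Finset.smul_sum, RingHom.id_apply] }
  let W : Submodule Kbar (Fin n → Kbar) :=
    Submodule.span Kbar {w | ∃ τ ∈ A.inertiaSubgroupIn ℚ, w = fun i => τ (b i)}
  have hW : W = ⊤ := by
    by_contra hne
    obtain ⟨f, hf0, hf⟩ := Submodule.exists_le_ker_of_lt_top W (lt_top_iff_ne_top.2 hne)
    apply hf0
    have hc : (fun i => f (Pi.single i 1)) = 0 := by
      apply artin_indep (A.inertiaSubgroupIn ℚ) b (fun i => f (Pi.single i 1))
      · intro a ha hsum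
        have h1 : ∀ i, a i ∈ K0 A := fun i => mem_K0.2 (ha i)
        have h2 := hb (fun i => ⟨a i, h1 i⟩) hsum
        funext i
        exact congrArg Subtype.val (congrFun h2 i)
      · intro σ hσ
        have h1 : f (fun i => σ (b i)) = 0 := hf (Submodule.subset_span ⟨σ, hσ, rfl⟩)
        rw [LinearMap.pi_apply_eq_sum_univ] at h1
        rw [← h1]
        refine Finset.sum_congr rfl fun i _ => ?_
        rw [smul_eq_mul, mul_comm]
        congr 2
        funext j
        by_cases hij : i = j
        · subst hij; simp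
        · rw [if_neg hij, Pi.single_eq_of_ne (Ne.symm hij)]
    ext i
    simpa using congrFun hc i
  have hΦ : ∀ w ∈ W, Φ w ∈ V := by
    intro w hw
    induction hw using Submodule.span_induction with
    | mem y hy =>
      obtain ⟨τ, hτ, rfl⟩ := hy
      exact hconj τ hτ
    | zero => rw [map_zero]; exact V.zero_mem
    | add y z _ _ hy hz => rw [map_add]; exact V.add_mem hy hz
    | smul c y _ hy => rw [map_smul]; exact V.smul_mem _ hy
  have hg : ∀ i, bc0 A N (g i) ∈ V := by
    intro i
    have h1 := hΦ (Pi.single i 1) (by rw [hW]; trivial)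
    have h2 : Φ (Pi.single i 1) = bc0 A N (g i) := by
      show ∑ j, (Pi.single i (1 : Kbar) : Fin n → Kbar) j • bc0 A N (g j) = _
      rw [Finset.sum_eq_single i]
      · rw [Pi.single_eq_same, one_smul]
      · intro j _ hj
        rw [Pi.single_eq_of_ne hj, zero_smul]
      · intro h; exact absurd (Finset.mem_univ i) h
    rwa [h2] at h1
  exact Submodule.sum_mem _ fun i _ => Submodule.smul_mem _ _
    (Submodule.subset_span ⟨hg i, ⟨g i, rfl⟩⟩)

/-- `L(a (x)_∞)` is stable under a semilinear automorphism fixing `x`. -/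
theorem smul_mem_rr {K F : Type*} [Field K] [Field F] [Algebra K F] [HasPrincipalDivisors K F]
    (γ : SemilinearAut K F) {x : F} (hx : γ • x = x) (a : ℕ) {y : F}
    (hy : y ∈ riemannRochSpace (a • RED.poleDiv (K := K) x)) :
    γ • y ∈ riemannRochSpace (a • RED.poleDiv (K := K) x) := by
  rw [mem_riemannRochSpace_iff] at hy ⊢
  intro P
  rcases hy (γ⁻¹ • P) with rfl | h
  · left; exact smul_zero _
  · right
    have h1 := SemilinearAut.ord_smul γ (γ⁻¹ • P) y
    have h2 := SemilinearAut.ord_smul γ (γ⁻¹ • P) x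
    rw [smul_inv_smul] at h1 h2
    rw [hx] at h2
    rw [Finsupp.smul_apply, RED.poleDiv_apply] at h ⊢
    rw [h1, h2]
    exact h

end Fermat.Agent.S36R
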