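import Fermat.Agent.S36R.K0.GaussK0
import Fermat.Agent.S36R.K0.Descent
import Fermat.Agent.S36R.K0.LatticeAbs
import Fermat.Agent.DR.Conc.LiftAbs
import Fermat.Agent.DR.Conc.Rank

/-!
# S36, block K0: lifting of functions to `FF (K0 A) M` (the `O0`-lattice of integral functions)

`A` over `q`, `I = I_A`, `K0 A = Kbar ^ I`.

* `exists_K0_lift_abs` : `R` a Cartesian reduction datum on `FF Kbar N` over `A` for which FACT D holds;
  `V` a finite dimensional `I`-stable subspace: every `u ∈ V ∩ O` has the same reduction as some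
  `bc0 u0 ∈ V ∩ O`, `u0 ∈ FF (K0 A) N`;
* `exists_K0_lift_rr` : the case `R = RM A M hM`, `V = L(a (x)_∞)`, `x` fixed by `I`;
* `exists_lift_regOff_K0`, `exists_lift_regOff_inv_K0` : the `K0`-versions of
  `DR.Conc.exists_lift_regOff`, `DR.Conc.exists_lift_regOff_inv`.
-/

set_option autoImplicit false

noncomputable section

namespace Fermat.Agent.S36R

open ModularCurve AlgebraicCurve Fermat.Agent.S24 Fermat.Agent.GAL Fermat.Agent.GAL.Gauss
  Fermat.Agent.GAL.Desc Fermat.Agent.GAL.RED Fermat.Agent.DR.Conc Fermat.Agent.DR.Gal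
  Fermat.Agent.Lib.RR

variable (A : ValuationSubring Kbar)

theorem smul_bc0 (N : ℕ) (c : K0 A) (g : FF (K0 A) N) :
    (c : Kbar) • bc0 A N g = bc0 A N (c • g) := by
  rw [Algebra.smul_def, Algebra.smul_def, map_mul, bc0_algebraMap]

/-- **The lattice lemma for modular function fields.** -/
theorem exists_K0_lift_abs {k Fb : Type*} [Field k] [Field Fb] [Algebra k Fb] (N : ℕ)
    (R : RedData Kbar (FF Kbar N) k Fb) (hRA : R.A = A) (hC : R.IsCartesian)
    {q : ℕ} (hq : q.Prime) (hA : A.LiesOverPrime q)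
    (hD : ∀ y : FF (K0 A) N, y ≠ 0 → ∃ n : ℤ, R.red (((q : Kbar) ^ n) • bc0 A N y) ≠ 0)
    (V : Submodule Kbar (FF Kbar N)) [Module.Finite Kbar V]
    (hV : ∀ τ ∈ A.inertiaSubgroupIn ℚ, ∀ x ∈ V,
      arithmeticGalois (modularFunctionFieldFull N) τ • x ∈ V)
    {u : FF Kbar N} (huV : u ∈ V) (huO : u ∈ R.O) :
    ∃ u0 : FF (K0 A) N, bc0 A N u0 ∈ V ∧ bc0 A N u0 ∈ R.O ∧ R.red (bc0 A N u0) = R.red u := by
  subst hRA
  have hq0 : (q : Kbar) ≠ 0 := by exact_mod_cast hq.ne_zero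
  have hq1 : R.A.valuation (q : Kbar) < 1 := PT.Local.v_ell_lt_one ⟨R.A, q, hq, hA⟩
  obtain ⟨u0, h1, ⟨g, rfl⟩, h3, h4⟩ := exists_fixed_lift R hC (K0 R.A).toSubfield
    (bc0 R.A N).range.toAddSubgroup
    (by
      rintro c hc _ ⟨g, rfl⟩
      exact ⟨(⟨c, hc⟩ : K0 R.A) • g, (smul_bc0 R.A N ⟨c, hc⟩ g).symm⟩)
    (q : Kbar) (natCast_mem (K0 R.A) q) hq0 hq1
    (by
      rintro _ ⟨g, rfl⟩ hg
      exact hD g fun h => hg (by rw [h]; exact map_zero _))
    (by
      intro a ha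
      obtain ⟨b, hb, hbA, hab⟩ := K0L.exists_rep' R.A hq hA ha
      refine ⟨b, hb, hbA, ?_⟩
      have h1 : R.redA (a - b) = 0 :=
        (R.redA_eq_zero_iff (R.A.sub_mem ha hbA)).2 ((ValuationSubring.mem_nonunits_iff R.A).1 hab)
      have h2 : R.redA (b + (a - b)) = R.redA b + R.redA (a - b) :=
        R.redA_add hbA (R.A.sub_mem ha hbA)
      rw [h1, add_zero, add_sub_cancel] at h2
      exact h2.symm)
    (by
      intro b
      obtain ⟨m, hm⟩ := exists_natCast_pow_mul_mem R.A q hq hA b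
      refine ⟨m + 1, ?_⟩
      have e : b * (q : Kbar) ^ (m + 1) = ((q : Kbar) ^ m * b) * q := by ring
      rw [e, map_mul]
      calc R.A.valuation ((q : Kbar) ^ m * b) * R.A.valuation (q : Kbar)
          ≤ 1 * R.A.valuation (q : Kbar) := by
            gcongr
            exact (R.A.valuation_le_one_iff _).2 hm
        _ < 1 := by rwa [one_mul])
    V (le_span_fixed R.A N V hV) huV huO
  exact ⟨g, h1, h3, h4⟩

section Level

variable (M : ℕ) [NeZero M] (hM : ((M : ℕ) : IsLocalRing.ResidueField ↥A) ≠ 0)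

/-- The lattice lemma for `L(a (x)_∞)` at a level `M` prime to `q`. -/
theorem exists_K0_lift_rr [Lib.RR.IsFF Kbar (FN M)] {q : ℕ} (hq : q.Prime)
    (hA : A.LiesOverPrime q) (x : FN M)
    (hx : ∀ τ ∈ A.inertiaSubgroupIn ℚ, arithmeticGalois (modularFunctionFieldFull M) τ • x = x)
    (a : ℕ) {u : FN M} (hu : u ∈ riemannRochSpace (a • RED.poleDiv (K := Kbar) x))
    (huO : u ∈ (RM A M hM).O) :
    ∃ u0 : FF (K0 A) M, (bc0 A M u0 : FN M) ∈ riemannRochSpace (a • RED.poleDiv (K := Kbar) x) ∧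
      (bc0 A M u0 : FN M) ∈ (RM A M hM).O ∧ (RM A M hM).red (bc0 A M u0) = (RM A M hM).red u := by
  exact exists_K0_lift_abs A M (RM A M hM) (gaussRedData'_A A M hM _ _) (RM_isCartesian A M hM)
    hq hA (fun y hy => red_zpow_smul_bc0_ne_zero M hM hq hA y hy)
    (riemannRochSpace (a • RED.poleDiv (K := Kbar) x))
    (fun τ hτ y hy => smul_mem_rr _ (hx τ hτ) a hy) hu huO

omit [NeZero M] in
theorem gal_smul_jF (τ : Kbar ≃ₐ[ℚ] Kbar) :
    arithmeticGalois (modularFunctionFieldFull M) τ • (jF M : FN M) = jF M := by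
  apply Subtype.ext
  rw [coe_arithmeticGalois_smul]
  exact coeffMap_coeffEmb τ jq

/-- **(LAT)**, affine chart: the `K0`-version of `DR.Conc.exists_lift_regOff`. -/
theorem exists_lift_regOff_K0 {q : ℕ} (hq : q.Prime) (hA : A.LiesOverPrime q) (hg : GoodRed A M)
    (v : Igusa.E (IsLocalRing.ResidueField ↥A) M)
    (hv : v ∈ regOff (IsLocalRing.ResidueField ↥A) (Igusa.jb (IsLocalRing.ResidueField ↥A) M)) :
    ∃ u0 : FF (K0 A) M, (bc0 A M u0 : FN M) ∈ regOff Kbar (jF M) ∧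
      (bc0 A M u0 : FN M) ∈ (RM A M hM).O ∧ (RM A M hM).red (bc0 A M u0) = v := by
  have : Lib.RR.IsFF Kbar (FN M) := Fermat.Agent.GAL.Desc.isFF_FF_Kbar M
  obtain ⟨u, hu, huO, rfl⟩ := exists_lift_regOff A M hM hg v hv
  obtain ⟨a, ha⟩ := exists_mem_rr_of_mem_regOff hu
  obtain ⟨u0, h1, h2, h3⟩ := exists_K0_lift_rr A M hM hq hA (jF M)
    (fun τ _ => gal_smul_jF M τ) a ha huO
  exact ⟨u0, mem_regOff_of_mem_rr h1, h2, h3⟩

/-- **(LAT)**, chart at infinity: the `K0`-version of `DR.Conc.exists_lift_regOff_inv`. -/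
theorem exists_lift_regOff_inv_K0 {q : ℕ} (hq : q.Prime) (hA : A.LiesOverPrime q)
    (hg : GoodRed A M) (v : Igusa.E (IsLocalRing.ResidueField ↥A) M)
    (hv : v ∈ regOff (IsLocalRing.ResidueField ↥A) (Igusa.jb (IsLocalRing.ResidueField ↥A) M)⁻¹) :
    ∃ u0 : FF (K0 A) M, (bc0 A M u0 : FN M) ∈ regOff Kbar (jF M)⁻¹ ∧
      (bc0 A M u0 : FN M) ∈ (RM A M hM).O ∧ (RM A M hM).red (bc0 A M u0) = v := by
  have : Lib.RR.IsFF Kbar (FN M) := Fermat.Agent.GAL.Desc.isFF_FF_Kbar M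
  obtain ⟨u, hu, huO, rfl⟩ := exists_lift_regOff_inv A M hM hg v hv
  obtain ⟨a, ha⟩ := exists_mem_rr_of_mem_regOff hu
  obtain ⟨u0, h1, h2, h3⟩ := exists_K0_lift_rr A M hM hq hA (jF M)⁻¹
    (fun τ _ => by rw [smul_inv'', gal_smul_jF]) a ha huO
  exact ⟨u0, mem_regOff_of_mem_rr h1, h2, h3⟩

end Level

end Fermat.Agent.S36R
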