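import Fermat.Agent.S24.Zeros
import Fermat.Agent.S24.PlaceDedekind
import Fermat.Agent.S24.LocalCount

/-!
# S36, route R, block K0, leaf L2a: a nontrivial valuation subring of a function field containing the
constants is (the valuation ring of) a place.
-/

set_option autoImplicit false

open IsDedekindDomain AlgebraicCurve IntermediateField

open IntermediateField.algebraAdjoinAdjoin

namespace Fermat.Agent.S36R

variable {k F : Type*} [Field k] [IsAlgClosed k] [CharZero k] [Field F] [Algebra k F]

/-- Proof. As in `S24.exists_finset_zeros`: `A₀ := Algebra.adjoin k {x}` is a PID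
(`Polynomial.algEquivOfTranscendental`), `R := integralClosure A₀ F` is a Dedekind domain with
fraction field `F` (`integralClosure.isDedekindDomain A₀ k⟮x⟯ F`,
`integralClosure.isFractionRing_of_finite_extension k⟮x⟯ F`).
* `R ⊆ V` (`S24.adjoin_le_valuationSubring`, `S24.integral_mem_valuationSubring`; valuation rings are
  integrally closed).
* `𝔭 := (maximal ideal of V) ∩ R` is prime, and `𝔭 ≠ ⊥`: otherwise every nonzero element of `R` is a
  unit of `V`, so `F = Frac R ⊆ V`, contradicting `hV`.
* `w : HeightOneSpectrum R := ⟨𝔭, _, _⟩`, `P := Place.ofHeightOneSpectrum w`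
  (`Place.ofHeightOneSpectrum_toValuationSubring`, `S24.ofHeightOneSpectrum_ord`).
* `P.toValuationSubring ≤ V`: if `w.valuation F z ≤ 1` write `z = a / b`, `a b : R`, `b ∉ 𝔭`
  (e.g. `z = a' / b'`; choose `π ∈ 𝔭 \ 𝔭²`-free argument: by `IsDedekindDomain` /
  `IsLocalization.AtPrime` the localisation at `𝔭` is the valuation ring; or use
  `HeightOneSpectrum.valuation_le_one_iff`-type lemmas / `exists_div_of_valuation_le_one` if present);
  then `b` is a unit of `V`.
* `V ≤ P.toValuationSubring`: let `t ∈ 𝔭`, `t ≠ 0`, `a := P.ord t > 0`. If `z ∈ V` and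
  `P.ord z = -c < 0`, then `u := z ^ a * t ^ c` has `P.ord u = 0`, so `u` and `u⁻¹` lie in
  `P.toValuationSubring ≤ V`: `u` is a unit of `V`; but `t` is a non-unit of `V` and `z ∈ V`, `c > 0`,
  so `u` is a non-unit. Contradiction. -/
theorem exists_place_of_valuationSubring (x : F) (hx : Transcendental k x)
    [FiniteDimensional k⟮x⟯ F] (V : ValuationSubring F) (hk : ∀ a : k, algebraMap k F a ∈ V)
    (hxV : x ∈ V) (hV : V ≠ ⊤) : ∃ P : Place k F, P.toValuationSubring = V := by
  let A := Algebra.adjoin k {x}
  let e : Polynomial k ≃ₐ[k] A := Polynomial.algEquivOfTranscendental k x hx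
  have hPID : IsPrincipalIdealRing A :=
    IsPrincipalIdealRing.of_surjective e.toRingEquiv.toRingHom e.surjective
  have : IsDedekindDomain (integralClosure A F) := integralClosure.isDedekindDomain A k⟮x⟯ F
  have : IsFractionRing (integralClosure A F) F :=
    integralClosure.isFractionRing_of_finite_extension k⟮x⟯ F
  have hRV : ∀ b : integralClosure A F, algebraMap (integralClosure A F) F b ∈ V := fun b =>
    S24.integral_mem_valuationSubring V A (S24.adjoin_le_valuationSubring V hk x hxV) b.2
  let φ : integralClosure A F →+* V :=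
    (algebraMap (integralClosure A F) F).codRestrict V.toSubring hRV
  have hφ : ∀ b, ((φ b : V) : F) = algebraMap (integralClosure A F) F b := fun b => rfl
  -- elements outside the centre are units of `V`
  have hunit : ∀ s : integralClosure A F, s ∉ (IsLocalRing.maximalIdeal V).comap φ →
      (algebraMap (integralClosure A F) F s)⁻¹ ∈ V := by
    intro s hs
    rw [Ideal.mem_comap, IsLocalRing.mem_maximalIdeal, mem_nonunits_iff, not_not] at hs
    obtain ⟨u, hu⟩ := hs
    have hu' : ((u : V) : F) = algebraMap (integralClosure A F) F s := by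
      rw [hu]; rfl
    have hinv : (((u⁻¹ : Vˣ) : V) : F) = (algebraMap (integralClosure A F) F s)⁻¹ := by
      have h : ((u : V) : F) * (((u⁻¹ : Vˣ) : V) : F) = 1 := congrArg Subtype.val u.mul_inv
      rw [← hu']
      exact eq_inv_of_mul_eq_one_right h
    rw [← hinv]
    exact ((u⁻¹ : Vˣ) : V).2
  let w : HeightOneSpectrum (integralClosure A F) :=
    { asIdeal := (IsLocalRing.maximalIdeal V).comap φ
      isPrime := Ideal.comap_isPrime _ _
      ne_bot := by
        intro hbot
        apply hV
        refine SetLike.ext fun z => ⟨fun _ => ValuationSubring.mem_top z, fun _ => ?_⟩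
        obtain ⟨a, s, hs, rfl⟩ := IsFractionRing.div_surjective (A := integralClosure A F) z
        have hs0 : s ≠ 0 := nonZeroDivisors.ne_zero hs
        have hsnot : s ∉ (IsLocalRing.maximalIdeal V).comap φ := by
          rw [hbot]; simpa using hs0
        rw [div_eq_mul_inv]
        exact mul_mem (hRV a) (hunit s hsnot) }
  refine ⟨Place.ofHeightOneSpectrum (K := k) w, ?_⟩
  rw [Place.ofHeightOneSpectrum_toValuationSubring,
    ← HeightOneSpectrum.valuationSubringAtPrime_eq_valuationSubring]
  refine ValuationSubring.eq_of_le_of_ne_top _ ?_ hV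
  rw [HeightOneSpectrum.valuationSubringAtPrime_eq_valuationSubring]
  intro z hz
  rw [Valuation.mem_valuationSubring_iff] at hz
  obtain ⟨n, d, hnd⟩ := HeightOneSpectrum.exists_primeCompl_mul_eq_of_integer _ z hz
  have hd : (d : integralClosure A F) ∉ w.asIdeal := d.2
  have hd0 : algebraMap (integralClosure A F) F d ≠ 0 := by
    intro h0
    apply hd
    have : (d : integralClosure A F) = 0 := (IsFractionRing.injective _ F) (by rw [h0, map_zero])
    rw [this]
    exact zero_mem _
  have hz' : z = algebraMap (integralClosure A F) F n *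
      (algebraMap (integralClosure A F) F d)⁻¹ := by
    rw [← hnd, mul_assoc, mul_inv_cancel₀ hd0, mul_one]
  rw [hz']
  exact mul_mem (hRV n) (hunit d hd)

end Fermat.Agent.S36R
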