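import Fermat.Agent.S36R.K0.Fixed
import Fermat.Agent.S36R.K0.Artin
import Fermat.Agent.S36R.K0.SpanTop
import Fermat.Agent.Lib.PlaceEval
import Fermat.Agent.GAL.FF.RH.Approx

/-!
# S36, route R, block K0, leaf L3: the constant field extension `Kbar / K0 A` is unramified at every
place: `e(P' / P0) = 1`.
-/

set_option autoImplicit false

namespace Fermat.Agent.S36R

open AlgebraicCurve ModularCurve Fermat.Agent.GAL Fermat.Agent.GAL.Desc Fermat.Agent.S24
  Fermat.Agent.Lib.RR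

variable (A : ValuationSubring Kbar)

/-! ### helpers -/

section RamOneHelpers

variable {K F : Type*} [Field K] [Field F] [Algebra K F]

theorem RamOne_ord_sum_ge {ι : Type*} (v : Place K F) (s : Finset ι) (f : ι → F) (m : ℤ)
    (h : ∀ i ∈ s, f i = 0 ∨ m ≤ v.ord (f i)) :
    ∑ i ∈ s, f i = 0 ∨ m ≤ v.ord (∑ i ∈ s, f i) := by
  classical
  induction s using Finset.induction_on with
  | empty => left; simp
  | insert a s ha ih =>
    rw [Finset.sum_insert ha]
    have h1 := h a (Finset.mem_insert_self a s)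
    have h2 := ih fun i hi => h i (Finset.mem_insert_of_mem hi)
    by_cases h0 : f a + ∑ i ∈ s, f i = 0
    · exact Or.inl h0
    right
    rcases h1 with h1 | h1
    · rw [h1, zero_add] at h0 ⊢
      exact h2.resolve_left h0
    rcases h2 with h2 | h2
    · rw [h2, add_zero]
      exact h1
    exact (le_min h1 h2).trans (Fermat.Agent.GAL.RED.min_le_ord_add v h0)

theorem RamOne_ev_sum [Lib.RR.IsFF K F] [IsAlgClosed K] {ι : Type*} (P : Place K F) (s : Finset ι)
    (f : ι → F) (h : ∀ i ∈ s, 0 ≤ P.ord (f i)) :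
    Fermat.Agent.Lib.PlaceEval.ev P (∑ i ∈ s, f i)
      = ∑ i ∈ s, Fermat.Agent.Lib.PlaceEval.ev P (f i) := by
  classical
  induction s using Finset.induction_on with
  | empty => simp
  | insert a s ha ih =>
    rw [Finset.sum_insert ha, Finset.sum_insert ha]
    have h2 : 0 ≤ P.ord (∑ i ∈ s, f i) :=
      (Fermat.Agent.Lib.PlaceEval.mem_iff P).1 (sum_mem fun i hi =>
        (Fermat.Agent.Lib.PlaceEval.mem_iff P).2 (h i (Finset.mem_insert_of_mem hi)))
    rw [Fermat.Agent.Lib.PlaceEval.ev_add P (h a (Finset.mem_insert_self a s)) h2,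
      ih fun i hi => h i (Finset.mem_insert_of_mem hi)]

end RamOneHelpers

theorem RamOne_smul_bc0 (N : ℕ) (σ : Kbar ≃ₐ[ℚ] Kbar) (hσ : σ ∈ A.inertiaSubgroupIn ℚ)
    (f : FF (K0 A) N) :
    arithmeticGalois (modularFunctionFieldFull N) σ • bc0 A N f = bc0 A N f :=
  (mem_range_bc0_iff A N _).mp ⟨f, rfl⟩ σ hσ

theorem RamOne_smul_sum (N : ℕ) (σ : Kbar ≃ₐ[ℚ] Kbar) (hσ : σ ∈ A.inertiaSubgroupIn ℚ)
    {n : ℕ} (b : Fin n → Kbar) (g : Fin n → FF (K0 A) N) :
    arithmeticGalois (modularFunctionFieldFull N) σ • ∑ i, b i • bc0 A N (g i)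
      = ∑ i, σ (b i) • bc0 A N (g i) := by
  rw [Finset.smul_sum]
  refine Finset.sum_congr rfl fun i _ => ?_
  rw [Algebra.smul_def, smul_mul', SemilinearAut.smul_algebraMap, baseAut_arithmeticGalois,
    RamOne_smul_bc0 A N σ hσ, Algebra.smul_def]
  rfl

/-- (L3a) **Key lemma.** `y = ∑ bᵢ • bc0 gᵢ` with the `bᵢ` linearly independent over `K0 A`. If all the
`I_A`-conjugates of `y` vanish at `P'`, then every `gᵢ` vanishes at `P0`.

Proof. (`have := isFF_FF_Kbar N`.) `y ≠ 0` (`Place.ord_zero`, hypothesis for `σ = 1`), so some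
`gᵢ ≠ 0`. Let `i₀` minimise `P0.ord (g i)` among the `i` with `g i ≠ 0`
(`Finset.exists_min_image`), `μ` the minimum; suppose `μ ≤ 0`. Put `h i := g i / g i₀`
(`0 ≤ P0.ord (h i)`, `h i₀ = 1`). For `σ ∈ I_A`:
`σ • y = ∑ σ (b i) • bc0 (g i)` (`smul_sum`, `smul_mul'`/`SemilinearAut.smul_algebraMap`,
`baseAut_arithmeticGalois`, `Algebra.smul_def`; `σ • bc0 g = bc0 g` by `mem_range_bc0_iff`), hence
`(σ • y) / bc0 (g i₀) = ∑ σ (b i) • bc0 (h i)` has `P'.ord = P'.ord (σ • y) - e * μ > 0`.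
Apply `Lib.PlaceEval.ev P'` (`ev_eq_zero_of_pos`, `ev_add`, `ev_smul`; all terms have `ord ≥ 0`;
induction on the Finset): `∑ σ (b i) * c i = 0` with `c i := ev P' (bc0 (h i))`, `c i₀ = 1`.
`artin_indep (A.inertiaSubgroupIn ℚ) b c` gives `c = 0` (its hypothesis `hb`: invariant `a i` lie in
`K0 A` by `mem_K0`). Contradiction. -/
theorem ord_pos_of_conj (N : ℕ) [NeZero N] (P' : Place Kbar (FF Kbar N))
    (P0 : Place (K0 A) (FF (K0 A) N)) (e : ℤ) (he0 : 0 < e)
    (he : ∀ f : FF (K0 A) N, P'.ord (bc0 A N f) = e * P0.ord f)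
    {n : ℕ} (b : Fin n → Kbar) (g : Fin n → FF (K0 A) N)
    (hb : ∀ c : Fin n → K0 A, ∑ i, b i * algebraMap (K0 A) Kbar (c i) = 0 → c = 0)
    (hy : ∀ σ ∈ A.inertiaSubgroupIn ℚ,
      0 < P'.ord (arithmeticGalois (modularFunctionFieldFull N) σ • ∑ i, b i • bc0 A N (g i))) :
    ∀ i, g i = 0 ∨ 0 < P0.ord (g i) := by
  classical
  have hFF := isFF_FF_Kbar N
  by_contra hcon
  push Not at hcon
  obtain ⟨j, hj0, hj⟩ := hcon
  obtain ⟨i₀, hi₀, hmin⟩ := Finset.exists_min_image (Finset.univ.filter fun i => g i ≠ 0)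
    (fun i => P0.ord (g i)) ⟨j, by simp [hj0]⟩
  have hi₀0 : g i₀ ≠ 0 := by simpa using hi₀
  have hμ : P0.ord (g i₀) ≤ 0 := (hmin j (by simp [hj0])).trans hj
  set h : Fin n → FF (K0 A) N := fun i => g i / g i₀ with hh_def
  have hh : ∀ i, 0 ≤ P0.ord (h i) := by
    intro i
    by_cases hgi : g i = 0
    · simp [hh_def, hgi]
    · have h1 : P0.ord (h i) = P0.ord (g i) - P0.ord (g i₀) := by
        rw [hh_def]
        show P0.ord (g i / g i₀) = _
        rw [div_eq_mul_inv, P0.ord_mul hgi (inv_ne_zero hi₀0), P0.ord_inv]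
        ring
      have := hmin i (by simp [hgi])
      omega
  have hh' : ∀ i, 0 ≤ P'.ord (bc0 A N (h i)) := fun i => by
    rw [he]
    exact mul_nonneg he0.le (hh i)
  set c : Fin n → Kbar := fun i => Fermat.Agent.Lib.PlaceEval.ev P' (bc0 A N (h i)) with hc_def
  have hc0 : c i₀ = 1 := by
    rw [hc_def]
    show Fermat.Agent.Lib.PlaceEval.ev P' (bc0 A N (g i₀ / g i₀)) = 1
    rw [div_self hi₀0, map_one, Fermat.Agent.Lib.PlaceEval.ev_one]
  have hrel : ∀ σ ∈ A.inertiaSubgroupIn ℚ, ∑ i, c i * σ (b i) = 0 := by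
    intro σ hσ
    have h1 := hy σ hσ
    rw [RamOne_smul_sum A N σ hσ] at h1
    have h2 : ∑ i, σ (b i) • bc0 A N (h i)
        = (∑ i, σ (b i) • bc0 A N (g i)) * (bc0 A N (g i₀))⁻¹ := by
      rw [Finset.sum_mul]
      refine Finset.sum_congr rfl fun i _ => ?_
      rw [smul_mul_assoc, ← map_inv₀, ← map_mul, ← div_eq_mul_inv]
    have hne : ∑ i, σ (b i) • bc0 A N (g i) ≠ 0 := by
      intro h0
      rw [h0, Place.ord_zero] at h1
      exact lt_irrefl _ h1
    have hbc : bc0 A N (g i₀) ≠ 0 := (map_ne_zero (bc0 A N)).mpr hi₀0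
    have h3 : 0 < P'.ord (∑ i, σ (b i) • bc0 A N (h i)) := by
      rw [h2, P'.ord_mul hne (inv_ne_zero hbc), P'.ord_inv, he]
      have : e * P0.ord (g i₀) ≤ 0 := mul_nonpos_of_nonneg_of_nonpos he0.le hμ
      omega
    have h4 := Fermat.Agent.Lib.PlaceEval.ev_eq_zero_of_pos P' h3
    rw [RamOne_ev_sum P' Finset.univ _ (fun i _ => by
      rw [← Fermat.Agent.Lib.PlaceEval.mem_iff, Algebra.smul_def]
      exact mul_mem (P'.algebraMap_mem' _) ((Fermat.Agent.Lib.PlaceEval.mem_iff P').2 (hh' i)))]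
      at h4
    simp only [Fermat.Agent.Lib.PlaceEval.ev_smul] at h4
    rw [← h4]
    exact Finset.sum_congr rfl fun i _ => mul_comm _ _
  have hc := artin_indep (A.inertiaSubgroupIn ℚ) b c (by
    intro a ha hsum
    have h1 := hb (fun i => ⟨a i, mem_K0.mpr (ha i)⟩) hsum
    funext i
    exact congrArg (fun z : K0 A => (z : Kbar)) (congrFun h1 i)) hrel
  rw [hc] at hc0
  exact zero_ne_one hc0

/-- (L3b) **`e = 1`.**

Proof. (`have := isFF_FF_Kbar N`.) `G := A.inertiaSubgroupIn ℚ`; for `σ ∈ G` put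
`Q σ := arithmeticGalois _ σ • P'`. By `SemilinearAut.ord_smul` and `mem_range_bc0_iff`,
`(Q σ).ord (bc0 f) = P'.ord (bc0 f) = e * P0.ord f`.
1. `T := {Q σ | σ ∈ G}` is finite: take `g0` with `P0.ord g0 = 1`
   (`IsDiscreteValuationRing.exists_irreducible`, `Place.ord_coe_irreducible`); `T` is contained in the
   support of `divOf (bc0 g0)`.
2. Weak approximation (`Fermat.Agent.GAL.FF.exists_weak_approx` with `s := T`,
   `a P' := π` a uniformiser of `P'`, `a w := 0` otherwise, `N w := 2`): `y` with `P'.ord y = 1` and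
   `0 < w.ord y` for all `w ∈ T`.
3. `exists_indep_repr_top` : `y = ∑ b i • bc0 (g i)`, `b` independent over `K0 A`
   (`Algebra.IsAlgebraic (K0 A) Kbar` is an instance / `Algebra.IsAlgebraic.tower_top`).
4. For `σ ∈ G`: `P'.ord (σ • y) = (Q σ⁻¹).ord y > 0` (`SemilinearAut.ord_smul` with `σ⁻¹ • P'`,
   `smul_inv_smul`). So `ord_pos_of_conj` applies: `g i = 0 ∨ 0 < P0.ord (g i)`.
5. Each term `b i • bc0 (g i)` is `0` or has `P'.ord = e * P0.ord (g i) ≥ e` (or `b i = 0`), so
   `1 = P'.ord y ≥ e` (`S24.ord_add_ge` / induction on the Finset, `y ≠ 0`). With `0 < e`: `e = 1`. -/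
theorem ramification_eq_one0 (N : ℕ) [NeZero N] (P' : Place Kbar (FF Kbar N))
    (P0 : Place (K0 A) (FF (K0 A) N)) (e : ℤ) (he0 : 0 < e)
    (he : ∀ f : FF (K0 A) N, P'.ord (bc0 A N f) = e * P0.ord f) : e = 1 := by
  classical
  have hFF := isFF_FF_Kbar N
  have hQ : ∀ σ ∈ A.inertiaSubgroupIn ℚ, ∀ f : FF (K0 A) N,
      (arithmeticGalois (modularFunctionFieldFull N) σ • P').ord (bc0 A N f) = e * P0.ord f := by
    intro σ hσ f
    have h1 := SemilinearAut.ord_smul (arithmeticGalois (modularFunctionFieldFull N) σ) P'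
      (bc0 A N f)
    rw [RamOne_smul_bc0 A N σ hσ] at h1
    rw [h1, he]
  obtain ⟨π0, hπ0⟩ := IsDiscreteValuationRing.exists_irreducible P0.toValuationSubring
  have hg0 : P0.ord (π0 : FF (K0 A) N) = 1 := P0.ord_coe_irreducible hπ0
  have hT : {Q : Place Kbar (FF Kbar N) | ∃ σ ∈ A.inertiaSubgroupIn ℚ,
      Q = arithmeticGalois (modularFunctionFieldFull N) σ • P'}.Finite := by
    refine (divOf (K := Kbar) (bc0 A N (π0 : FF (K0 A) N))).support.finite_toSet.subset ?_
    rintro Q ⟨σ, hσ, rfl⟩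
    rw [Finset.mem_coe, Finsupp.mem_support_iff, divOf_apply, hQ σ hσ, hg0]
    omega
  obtain ⟨π, hπ⟩ := IsDiscreteValuationRing.exists_irreducible P'.toValuationSubring
  have hπ1 : P'.ord (π : FF Kbar N) = 1 := P'.ord_coe_irreducible hπ
  have hπne : (π : FF Kbar N) ≠ 0 := by
    intro h0
    rw [h0, Place.ord_zero] at hπ1
    exact zero_ne_one hπ1
  obtain ⟨y, hy⟩ := Fermat.Agent.GAL.FF.exists_weak_approx hT.toFinset
    (fun w => if w = P' then (π : FF Kbar N) else 0) (fun _ => 2)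
  have hP'T : P' ∈ hT.toFinset := by
    rw [Set.Finite.mem_toFinset]
    exact ⟨1, one_mem _, by rw [map_one, one_smul]⟩
  have hyP' : P'.ord y = 1 := by
    have h1 := hy P' hP'T
    simp only [if_true] at h1
    rcases h1 with h1 | h1
    · rw [← h1, hπ1]
    · have hne : (π : FF Kbar N) - y ≠ 0 := by
        intro h0
        rw [h0, Place.ord_zero] at h1
        omega
      have h2 : y = (π : FF Kbar N) + -((π : FF Kbar N) - y) := by ring
      rw [h2, Fermat.Agent.GAL.RED.ord_add_eq_of_lt P' hπne (neg_ne_zero.mpr hne)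
        (by rw [Fermat.Agent.GAL.RED.ord_neg]; omega), hπ1]
  have hy0 : y ≠ 0 := by
    intro h0
    rw [h0, Place.ord_zero] at hyP'
    exact zero_ne_one hyP'
  have hyT : ∀ w ∈ hT.toFinset, 0 < w.ord y := by
    intro w hw
    by_cases hwP : w = P'
    · rw [hwP, hyP']
      exact one_pos
    · have h1 := hy w hw
      simp only [if_neg hwP] at h1
      rcases h1 with h1 | h1
      · exact absurd h1.symm hy0
      · rw [zero_sub, Fermat.Agent.GAL.RED.ord_neg] at h1
        omega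
  obtain ⟨n, b, g, hb, hyrep⟩ :=
    exists_indep_repr_top (K := K0 A) (L := Kbar) (modularFunctionFieldFull N) y
  have hyrep' : y = ∑ i, b i • bc0 A N (g i) := hyrep
  have hconj : ∀ σ ∈ A.inertiaSubgroupIn ℚ,
      0 < P'.ord (arithmeticGalois (modularFunctionFieldFull N) σ • ∑ i, b i • bc0 A N (g i)) := by
    intro σ hσ
    rw [← hyrep']
    have h1 := SemilinearAut.ord_smul (arithmeticGalois (modularFunctionFieldFull N) σ)
      (arithmeticGalois (modularFunctionFieldFull N) σ⁻¹ • P') y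
    rw [← mul_smul, ← map_mul, mul_inv_cancel, map_one, one_smul] at h1
    rw [h1]
    apply hyT
    rw [Set.Finite.mem_toFinset]
    exact ⟨σ⁻¹, inv_mem hσ, rfl⟩
  have hpos := ord_pos_of_conj A N P' P0 e he0 he b g hb hconj
  have hge := RamOne_ord_sum_ge P' Finset.univ (fun i => b i • bc0 A N (g i)) e (by
    intro i _
    by_cases hbi : b i = 0
    · left
      simp only [hbi, zero_smul]
    rcases hpos i with hgi | hgi
    · left
      simp only [hgi, map_zero, smul_zero]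
    · right
      have hgne : g i ≠ 0 := by
        intro h0
        rw [h0, Place.ord_zero] at hgi
        exact lt_irrefl _ hgi
      show e ≤ P'.ord (b i • bc0 A N (g i))
      rw [Algebra.smul_def, P'.ord_mul (by simpa using hbi) ((map_ne_zero (bc0 A N)).mpr hgne),
        Fermat.Agent.GAL.RED.ord_algebraMap, zero_add, he]
      nlinarith)
  rw [← hyrep'] at hge
  have h1 := hge.resolve_left hy0
  omega

end Fermat.Agent.S36R
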