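import Fermat.Agent.S36R.K0.Defs
import Fermat.Agent.S36R.K0.PlaceOfVal
import Fermat.Agent.GAL.Tors.Desc.PlacesRestrict
import Fermat.Agent.GAL.Tors.Dict.Gen
import Fermat.Agent.GAL.FF.IsFF
import Fermat.Agent.S24.Degree

/-!
# S36, route R, block K0, leaf L2b: every place of `FF (K0 A) N` has a place of `FF Kbar N` above it.
-/

set_option autoImplicit false

namespace Fermat.Agent.S36R

open AlgebraicCurve ModularCurve Fermat.Agent.GAL Fermat.Agent.GAL.Desc Fermat.Agent.S24

variable (A : ValuationSubring Kbar)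

/-- Shortcut instance (the generic instance search times out because `K0 A` is itself an
intermediate field). -/
noncomputable instance Above_instAlgebra (N : ℕ) : Algebra ↥(K0 A) ↥(FF (↥(K0 A)) N) :=
  SubalgebraClass.toAlgebra _

theorem bc0_jF (N : ℕ) : bc0 A N (Tors.Dict.jF (K0 A) N) = (jF N : FF Kbar N) :=
  Subtype.ext (coeffMap_coeffEmb_hom (algebraMap (K0 A) Kbar) jq)

/-- Proof.
1. `IsLocalRing.exists_factor_valuationRing` for
   `f := (bc0 A N).comp P0.toValuationSubring.subtype : P0.toValuationSubring →+* FF Kbar N` gives a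
   valuation subring `V` of `FF Kbar N` with `bc0 z ∈ V` for `z ∈ O_{P0}` and
   `bc0 z` a non-unit of `V` for `z` a non-unit of `O_{P0}` (`IsLocalHom`).
2. `V` contains the constants: `a : Kbar` is integral over `K0 A` (algebraic), and
   `algebraMap (K0 A) ..` lands in `O_{P0}` (`P0.algebraMap_mem'`, `bc0_algebraMap`), valuation rings
   are integrally closed (`ValuationSubring` : `IsIntegrallyClosed`, or
   `S24.integral_mem_valuationSubring`). `V ≠ ⊤`: a uniformiser `g0` of `P0`
   (`IsDiscreteValuationRing.exists_irreducible`) maps to a nonzero non-unit.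
3. `x := jF N` or `(jF N)⁻¹`, whichever of `Tors.Dict.jF (K0 A) N`, its inverse, lies in `O_{P0}`
   (`ValuationSubring.mem_or_inv_mem`; `bc0_jF`); `S24.transcendental_jF`, `S24.finiteDimensional_jF`,
   `GAL.FF.finiteDimensional_adjoin_inv`. `exists_place_of_valuationSubring` gives `P'` with
   `P'.toValuationSubring = V`.
4. `Desc.exists_place_comap (algebraMap (K0 A) Kbar) _ P'` : the first alternative is impossible
   (`P'.ord (bc0 g0) > 0`), the second gives `(P1, e)`. `P1 = P0` (`Place.ext` /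
   `Place.toValuationSubring_injective`): `z ∈ O_{P0} → bc0 z ∈ V → 0 ≤ e * P1.ord z → z ∈ O_{P1}`;
   conversely if `z ∈ O_{P1}`, `z ∉ O_{P0}` then `z⁻¹` is a non-unit of `O_{P0}`, so
   `0 < P'.ord (bc0 z⁻¹) = - e * P1.ord z ≤ 0`. -/
theorem exists_place_above0 (N : ℕ) [NeZero N] (P0 : Place (K0 A) (FF (K0 A) N)) :
    ∃ (P' : Place Kbar (FF Kbar N)) (e : ℤ), 0 < e ∧
      ∀ f : FF (K0 A) N, P'.ord (bc0 A N f) = e * P0.ord f := by
  classical
  -- step 1: a valuation ring of `FF Kbar N` dominating `O_{P0}`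
  obtain ⟨V, hV, hloc⟩ := IsLocalRing.exists_factor_valuationRing
    ((bc0 A N).comp P0.toValuationSubring.subtype)
  have hmem : ∀ z : FF (K0 A) N, z ∈ P0.toValuationSubring → bc0 A N z ∈ V :=
    fun z hz => hV ⟨z, hz⟩
  have hunit : ∀ z : FF (K0 A) N, z ∈ P0.toValuationSubring → z ≠ 0 → (bc0 A N z)⁻¹ ∈ V →
      z⁻¹ ∈ P0.toValuationSubring := by
    intro z hz hz0 hinv
    have hne : bc0 A N z ≠ 0 := (map_ne_zero _).2 hz0
    have hu : IsUnit ((((bc0 A N).comp P0.toValuationSubring.subtype).codRestrict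
        V.toSubring hV) ⟨z, hz⟩) := by
      refine ⟨⟨⟨bc0 A N z, hmem z hz⟩, ⟨(bc0 A N z)⁻¹, hinv⟩, ?_, ?_⟩, rfl⟩
      · exact Subtype.ext (mul_inv_cancel₀ hne)
      · exact Subtype.ext (inv_mul_cancel₀ hne)
    have h1 : IsUnit (⟨z, hz⟩ : P0.toValuationSubring) := hloc.map_nonunit _ hu
    have h2 := (P0.toValuationSubring.valuation_eq_one_iff ⟨z, hz⟩).1 h1
    rw [← ValuationSubring.valuation_le_one_iff, map_inv₀]
    have h3 : P0.toValuationSubring.valuation z = 1 := h2
    rw [h3, inv_one]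
  have hiff : ∀ z : FF (K0 A) N, z ∈ P0.toValuationSubring ↔ bc0 A N z ∈ V := by
    intro z
    refine ⟨hmem z, fun hz => ?_⟩
    rcases eq_or_ne z 0 with rfl | hz0
    · exact zero_mem _
    rcases P0.toValuationSubring.mem_or_inv_mem z with h | h
    · exact h
    · have := hunit z⁻¹ h (inv_ne_zero hz0) (by rw [map_inv₀, inv_inv]; exact hz)
      rwa [inv_inv] at this
  -- step 2: `V` contains the constants and is not everything
  have hk : ∀ a : Kbar, algebraMap Kbar (FF Kbar N) a ∈ V := by
    intro a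
    have halg : Algebra.IsAlgebraic (K0 A) Kbar := Algebra.IsAlgebraic.tower_top (K := ℚ) (K0 A)
    have hint : IsIntegral (K0 A) a := (Algebra.IsAlgebraic.isAlgebraic a).isIntegral
    obtain ⟨p, hp, hpa⟩ := hint
    let φ : K0 A →+* V := ((bc0 A N).comp (algebraMap (K0 A) (FF (K0 A) N))).codRestrict V.toSubring
      (fun c => hmem _ (P0.algebraMap_mem' c))
    have hφ : (algebraMap V (FF Kbar N)).comp φ =
        (algebraMap Kbar (FF Kbar N)).comp (algebraMap (K0 A) Kbar) := by
      ext c : 1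
      exact bc0_algebraMap A N c
    have hI : IsIntegral V (algebraMap Kbar (FF Kbar N) a) := by
      refine ⟨p.map φ, hp.map φ, ?_⟩
      rw [Polynomial.eval₂_map, hφ, ← Polynomial.hom_eval₂, hpa, map_zero]
    obtain ⟨y, hy⟩ := IsIntegrallyClosed.isIntegral_iff.mp hI
    rw [← hy]
    exact y.2
  obtain ⟨π, hπ⟩ := IsDiscreteValuationRing.exists_irreducible P0.toValuationSubring
  have hπ0 : (π : FF (K0 A) N) ≠ 0 := by
    simpa [ne_eq, ZeroMemClass.coe_eq_zero] using hπ.ne_zero
  have hπinv : (π : FF (K0 A) N)⁻¹ ∉ P0.toValuationSubring := by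
    intro h
    have h1 := ord_nonneg_of_mem P0 h
    rw [P0.ord_inv, P0.ord_coe_irreducible hπ] at h1
    omega
  have hVtop : V ≠ ⊤ := by
    intro h
    exact hπinv ((hiff _).2 (h ▸ ValuationSubring.mem_top _))
  -- step 3: `V` is a place
  obtain ⟨P', hP'⟩ : ∃ P' : Place Kbar (FF Kbar N), P'.toValuationSubring = V := by
    rcases P0.toValuationSubring.mem_or_inv_mem (Tors.Dict.jF (K0 A) N) with h | h
    · have := finiteDimensional_jF N
      refine exists_place_of_valuationSubring (jF N : FF Kbar N) (transcendental_jF N) V hk ?_ hVtop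
      rw [← bc0_jF A N]
      exact hmem _ h
    · have := finiteDimensional_jF N
      have := GAL.FF.finiteDimensional_adjoin_inv (k := Kbar) (jF N : FF Kbar N)
      refine exists_place_of_valuationSubring (jF N : FF Kbar N)⁻¹
        (transcendental_inv (transcendental_jF N)) V hk ?_ hVtop
      rw [← bc0_jF A N, ← map_inv₀]
      exact hmem _ h
  -- step 4: comparison of the order functions
  obtain ⟨m, hm, h⟩ := exists_mul_ord_of_hom P0 (fun f => P'.ord (bc0 A N f))
    (fun f g hf hg => by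
      show P'.ord (bc0 A N (f * g)) = _
      rw [map_mul, P'.ord_mul ((map_ne_zero _).2 hf) ((map_ne_zero _).2 hg)])
    (fun f hf => by
      rw [hiff, ← hP']
      exact mem_iff_ord_nonneg P' ((map_ne_zero _).2 hf))
  refine ⟨P', m, hm, fun f => ?_⟩
  rcases eq_or_ne f 0 with rfl | hf
  · simp
  · exact h f hf

end Fermat.Agent.S36R
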