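import Fermat.Agent.S36R.K0.Above
import Fermat.Agent.S36R.K0.RamOne

/-!
# S36, route R, block K0: (D4) Kummer units over `Kbar` with coefficients in `K0 A` are Kummer units
over `K0 A`; final packaging of the block.
-/

set_option autoImplicit false

namespace Fermat.Agent.S36R

open AlgebraicCurve ModularCurve Fermat.Agent.GAL Fermat.Agent.GAL.Desc Fermat.Agent.S24

variable (A : ValuationSubring Kbar)

/-- Every place of `FF (K0 A) N` extends to `FF Kbar N` without ramification. -/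
theorem exists_place_above_ord_eq (N : ℕ) [NeZero N] (P0 : Place (K0 A) (FF (K0 A) N)) :
    ∃ P' : Place Kbar (FF Kbar N), ∀ f : FF (K0 A) N, P'.ord (bc0 A N f) = P0.ord f := by
  obtain ⟨P', e, he0, he⟩ := exists_place_above0 A N P0
  have h1 := ramification_eq_one0 A N P' P0 e he0 he
  exact ⟨P', fun f => by rw [he, h1, one_mul]⟩

/-- (D4) -/
theorem mem_kummerUnits0 (N : ℕ) [NeZero N] (m : ℕ) (f : (FF (K0 A) N)ˣ)
    (hf : Units.map (bc0 A N : FF (K0 A) N →* FF Kbar N) f ∈ kummerUnits Kbar (FF Kbar N) m) :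
    f ∈ kummerUnits (K0 A) (FF (K0 A) N) m := by
  intro P0
  obtain ⟨P', hP'⟩ := exists_place_above_ord_eq A N P0
  rw [← hP']
  exact hf P'

/-- **Output of block K0** (D3 + D4): an `I_A`-invariant class of `KV Kbar (FF Kbar N) m` is the class
of `bc0 f` for a Kummer unit `f` of `FF (K0 A) N` over `K0 A`. -/
theorem exists_kummerUnit0_rep (N : ℕ) [NeZero N] {m : ℕ} (hm : m ≠ 0)
    (x : KV Kbar (FF Kbar N) m) (hx : ∀ τ ∈ A.inertiaSubgroupIn ℚ, τ • x = x) :
    ∃ (f : (FF (K0 A) N)ˣ) (_ : f ∈ kummerUnits (K0 A) (FF (K0 A) N) m)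
      (hf : Units.map (bc0 A N : FF (K0 A) N →* FF Kbar N) f ∈ kummerUnits Kbar (FF Kbar N) m),
      KV.mk ⟨_, hf⟩ = x := by
  obtain ⟨f, hf, hfx⟩ := exists_bc0_rep A N hm x hx
  exact ⟨f, mem_kummerUnits0 A N m f hf, hf, hfx⟩

end Fermat.Agent.S36R
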