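import Fermat.Agent.S36R.K0.UnramAbs
import Fermat.Agent.S36R.K0.Fixed

/-!
# S36, route R, block K0: (D4) `FF Kbar N / FF (K0 A) N` is unramified

* `constExt_bc` : for any subfield-like `ι : K → Kbar` with `Kbar` integral over `K`,
  `bc ι : FF K N → FF Kbar N` is an algebraic constant field extension (`Unram.ConstExt`);
* `exists_place_above_bc0` : every place `P0` of `FF (K0 A) N` over `K0 A` has an extension `P'` to
  `FF Kbar N` with `P'.ord (bc0 A N y) = P0.ord y` (existence and `e = 1`);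
* `mem_kummerUnits_K0` (D4): Kummer over `Kbar` implies Kummer over `K0 A`;
* `exists_bc0_rep'` : Hilbert 90 (D3) with (D4) included.
-/

set_option autoImplicit false

namespace Fermat.Agent.S36R

open AlgebraicCurve ModularCurve Fermat.Agent.GAL Fermat.Agent.GAL.Desc Fermat.Agent.S24

theorem constExt_bc {K : Type*} [Field K] [Algebra ℚ K] (ι : K →+* Kbar)
    (hι : ∀ c : Kbar, ι.IsIntegralElem c) (N : ℕ) [NeZero N] :
    Unram.ConstExt ι (bc ι (modularFunctionFieldFull N)) where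
  integral := hι
  comm := bc_algebraMap ι _
  span := exists_span_div ι _
  var := ⟨jF N, finiteDimensional_jF N⟩

variable (A : ValuationSubring Kbar)

theorem constExt_bc0 (N : ℕ) [NeZero N] :
    Unram.ConstExt (algebraMap (K0 A) Kbar) (bc0 A N) :=
  constExt_bc _ (fun c => Algebra.IsIntegral.isIntegral (R := K0 A) c) N

/-- every place of `FF (K0 A) N` extends to `FF Kbar N`, with ramification index one. -/
theorem exists_place_above_bc0 (N : ℕ) [NeZero N] (P0 : Place (K0 A) (FF (K0 A) N)) :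
    ∃ P' : Place Kbar (FF Kbar N), ∀ y : FF (K0 A) N, P'.ord (bc0 A N y) = P0.ord y :=
  Unram.exists_place_above (constExt_bc0 A N) P0

/-- (D4) Kummer over `Kbar` implies Kummer over `K0 A`. -/
theorem mem_kummerUnits_K0 (N : ℕ) [NeZero N] (m : ℕ) (f : (FF (K0 A) N)ˣ)
    (hf : Units.map (bc0 A N : FF (K0 A) N →* FF Kbar N) f ∈ kummerUnits Kbar (FF Kbar N) m) :
    f ∈ kummerUnits (K0 A) (FF (K0 A) N) m := fun P0 =>
  Unram.dvd_ord_of_forall_dvd (constExt_bc0 A N) m (f : FF (K0 A) N) (fun P' => hf P') P0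

/-- (D3) + (D4): an `I_A`-invariant class is represented by a Kummer unit of `FF (K0 A) N`. -/
theorem exists_bc0_rep' (N : ℕ) [NeZero N] {m : ℕ} (hm : m ≠ 0) (x : KV Kbar (FF Kbar N) m)
    (hx : ∀ τ ∈ A.inertiaSubgroupIn ℚ, τ • x = x) :
    ∃ (f : (FF (K0 A) N)ˣ) (_ : f ∈ kummerUnits (K0 A) (FF (K0 A) N) m)
      (hf : Units.map (bc0 A N : FF (K0 A) N →* FF Kbar N) f ∈ kummerUnits Kbar (FF Kbar N) m),
      KV.mk ⟨_, hf⟩ = x := by
  obtain ⟨f, hf, h⟩ := exists_bc0_rep A N hm x hx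
  exact ⟨f, mem_kummerUnits_K0 A N m f hf, hf, h⟩

end Fermat.Agent.S36R
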