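import Mathlib
import Fermat.Agent.GAL.Tors.Dict.PlaceOf
import Fermat.Agent.S24.PrincipalDegree
import Fermat.Agent.S24.PlaceDeg

/-!
# S36, route R, block K0: algebraic constant field extensions are unramified (abstract form)

`K` a field of characteristic zero, `L` an algebraically closed field, algebraic over `K`,
`F / K` and `F' / L` fields, `β : F → F'` with `F' = L · β(F)` and `F'` a function field of one
variable over `L`.  Then every place `P0` of `F / K` has an extension `P'` to `F' / L` with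
`P'.ord (β y) = P0.ord y` (existence of an extension and `e = 1` at the same time).

Proof: Chevalley gives a valuation ring `V` of `F'` dominating `β (O_P0)`; `L ⊆ V`; the residue field
of `V` is `L`; the ideal `{v < 1}` of `R = L[β (O_P0)]` is, locally at `V`, generated by `β π`
(separability of the minimal polynomials of the residues); an element of `R` has valuation
`≥ v (β π) ^ M` for some `M` because it is algebraic over `β F`.
-/

set_option autoImplicit false

namespace Fermat.Agent.S36R.Unram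

open AlgebraicCurve Polynomial IntermediateField Fermat.Agent.S24

noncomputable section

section Val

variable {E : Type*} [Field E] (V : ValuationSubring E)

/-- valuation rings are integrally closed (ring hom form). -/
theorem mem_of_isIntegralElem {R : Type*} [CommRing R] (φ : R →+* E) (hφ : ∀ r, φ r ∈ V) {z : E}
    (hz : φ.IsIntegralElem z) : z ∈ V := by
  obtain ⟨p, hp, hz⟩ := hz
  let φ' : R →+* V := φ.codRestrict V.toSubring hφ
  have h1 : IsIntegral V z := by
    refine ⟨p.map φ', hp.map _, ?_⟩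
    rw [Polynomial.eval₂_map]
    exact hz
  obtain ⟨a, ha⟩ := (IsIntegrallyClosed.isIntegral_iff (R := V) (K := E)).1 h1
  rw [← ha]
  exact a.2

/-- An element algebraic over a subfield is bounded below by an element of the subfield. -/
theorem exists_le_of_isIntegralElem {E0 : Type*} [Field E0] (φ : E0 →+* E) {x : E}
    (hx : φ.IsIntegralElem x) (hx0 : x ≠ 0) (hx1 : V.valuation x ≤ 1) :
    ∃ c : E0, c ≠ 0 ∧ V.valuation (φ c) ≤ V.valuation x := by
  let _ : Algebra E0 E := φ.toAlgebra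
  have hint : IsIntegral E0 x := hx
  set p := minpoly E0 x with hp
  have h0 : p.coeff 0 ≠ 0 := minpoly.coeff_zero_ne_zero hint hx0
  have hdeg : 0 < p.natDegree := minpoly.natDegree_pos hint
  have hroot : aeval x p = 0 := minpoly.aeval E0 x
  rw [Polynomial.aeval_eq_sum_range, Finset.sum_range_succ'] at hroot
  have hne : (Finset.range p.natDegree).Nonempty := Finset.nonempty_range_iff.2 hdeg.ne'
  obtain ⟨j, hj, hmax⟩ := Finset.exists_max_image (Finset.range p.natDegree)
    (fun i => V.valuation (φ (p.coeff (i + 1)))) hne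
  have hlead : p.coeff (p.natDegree - 1 + 1) = 1 := by
    rw [Nat.sub_add_cancel hdeg]
    exact (minpoly.monic hint).coeff_natDegree
  have hj1 : (1 : V.ValueGroup) ≤ V.valuation (φ (p.coeff (j + 1))) := by
    have := hmax (p.natDegree - 1) (Finset.mem_range.2 (by omega))
    simp only [hlead, map_one] at this
    exact this
  have hcj : p.coeff (j + 1) ≠ 0 := by
    intro h
    rw [h, map_zero, map_zero] at hj1
    exact absurd hj1 (not_le.2 zero_lt_one)
  have hsum : V.valuation (∑ i ∈ Finset.range p.natDegree, p.coeff (i + 1) • x ^ (i + 1)) ≤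
      V.valuation (φ (p.coeff (j + 1))) * V.valuation x := by
    apply Valuation.map_sum_le
    intro i hi
    rw [Algebra.smul_def, map_mul, pow_succ, map_mul, map_pow]
    have h1 : V.valuation x ^ i ≤ 1 := pow_le_one₀ zero_le hx1
    have h2 : V.valuation x ^ i * V.valuation x ≤ V.valuation x := by
      calc V.valuation x ^ i * V.valuation x ≤ 1 * V.valuation x := mul_le_mul_left h1 _
        _ = _ := one_mul _
    exact mul_le_mul' (hmax i hi) h2
  have hc0 : φ (p.coeff 0) = - ∑ i ∈ Finset.range p.natDegree, p.coeff (i + 1) • x ^ (i + 1) := by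
    have : p.coeff 0 • x ^ 0 = φ (p.coeff 0) := by
      rw [pow_zero, Algebra.smul_def, mul_one]
      rfl
    rw [this] at hroot
    linear_combination hroot
  refine ⟨p.coeff 0 / p.coeff (j + 1), div_ne_zero h0 hcj, ?_⟩
  rw [map_div₀, map_div₀, hc0, Valuation.map_neg]
  have hpos : 0 < V.valuation (φ (p.coeff (j + 1))) := lt_of_lt_of_le zero_lt_one hj1
  rw [div_le_iff₀ hpos, mul_comm]
  exact hsum

end Val

variable {K L F F' : Type*} [Field K] [Field L] [Field F] [Field F'] [Algebra K F] [Algebra L F']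

/-- `F' / L` is an algebraic constant field extension of `F / K`. -/
structure ConstExt (ι : K →+* L) (β : F →+* F') : Prop where
  integral : ∀ c : L, ι.IsIntegralElem c
  comm : ∀ a : K, β (algebraMap K F a) = algebraMap L F' (ι a)
  span : ∀ x : F', ∃ A ∈ Submodule.span L (Set.range β), ∃ B ∈ Submodule.span L (Set.range β),
    B ≠ 0 ∧ x = A / B
  var : ∃ x₀ : F', FiniteDimensional L⟮x₀⟯ F'

/-- `V` dominates `β (O_P0)`. -/
structure Dominates (β : F →+* F') (P0 : Place K F) (V : ValuationSubring F') : Prop where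
  mem : ∀ g ∈ P0.toValuationSubring, β g ∈ V
  lt : ∀ g : F, 0 < P0.ord g → V.valuation (β g) < 1

theorem exists_dominates (β : F →+* F') (P0 : Place K F) :
    ∃ V : ValuationSubring F', Dominates β P0 V := by
  obtain ⟨V, h, hloc⟩ :=
    IsLocalRing.exists_factor_valuationRing (β.comp P0.toValuationSubring.subtype)
  refine ⟨V, ⟨fun g hg => h ⟨g, hg⟩, fun g hpos => ?_⟩⟩
  have hg0 : g ≠ 0 := by
    rintro rfl
    simp at hpos
  have hg : g ∈ P0.toValuationSubring := mem_of_ord_nonneg P0 hg0 hpos.le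
  have hnu : (⟨g, hg⟩ : P0.toValuationSubring) ∈ IsLocalRing.maximalIdeal _ :=
    (mem_maximalIdeal_iff P0 _).2 (Or.inr hpos)
  have h2 : (⟨β g, h ⟨g, hg⟩⟩ : V) ∈ IsLocalRing.maximalIdeal V := by
    rw [IsLocalRing.mem_maximalIdeal, mem_nonunits_iff] at hnu ⊢
    intro hu
    exact hnu (hloc.map_nonunit ⟨g, hg⟩ hu)
  exact (V.valuation_lt_one_iff _).1 h2

section Main

variable {ι : K →+* L} {β : F →+* F'} {P0 : Place K F} {V : ValuationSubring F'}

theorem Dominates.const_mem (d : Dominates β P0 V) (h : ConstExt ι β) (c : L) :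
    algebraMap L F' c ∈ V := by
  apply mem_of_isIntegralElem V ((algebraMap L F').comp ι)
  · intro r
    rw [RingHom.comp_apply, ← h.comm]
    exact d.mem _ (P0.algebraMap_mem' r)
  · obtain ⟨p, hp, hc⟩ := h.integral c
    refine ⟨p, hp, ?_⟩
    rw [← Polynomial.hom_eval₂, hc, map_zero]

theorem v_eq_one_of_mem {E : Type*} [Field E] (V : ValuationSubring E) {z : E} (hz0 : z ≠ 0)
    (hz : z ∈ V) (hz' : z⁻¹ ∈ V) : V.valuation z = 1 := by
  have h1 := (V.valuation_le_one_iff _).2 hz
  have h2 := (V.valuation_le_one_iff _).2 hz'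
  rw [map_inv₀, inv_le_one₀ (zero_lt_iff.2 ((Valuation.ne_zero_iff _).2 hz0))] at h2
  exact le_antisymm h1 h2

theorem Dominates.v_const (d : Dominates β P0 V) (h : ConstExt ι β) {c : L} (hc : c ≠ 0) :
    V.valuation (algebraMap L F' c) = 1 := by
  apply v_eq_one_of_mem V (by simpa using hc) (d.const_mem h c)
  rw [← map_inv₀]
  exact d.const_mem h c⁻¹

theorem Dominates.v_unit (d : Dominates β P0 V) {g : F} (hg : g ≠ 0) (h0 : P0.ord g = 0) :
    V.valuation (β g) = 1 := by
  apply v_eq_one_of_mem V ((map_ne_zero β).2 hg) (d.mem g (mem_of_ord_nonneg P0 hg h0.ge))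
  rw [← map_inv₀]
  exact d.mem _ (mem_of_ord_nonneg P0 (inv_ne_zero hg) (by rw [P0.ord_inv, h0]; simp))

theorem ne_zero_of_ord_eq_one {π : F} (hπ : P0.ord π = 1) : π ≠ 0 := by
  rintro rfl
  simp at hπ

theorem Dominates.v_eq_zpow (d : Dominates β P0 V) {π : F} (hπ : P0.ord π = 1) {y : F}
    (hy : y ≠ 0) : V.valuation (β y) = V.valuation (β π) ^ (P0.ord y) := by
  have hπ0 := ne_zero_of_ord_eq_one hπ
  have hz : π ^ (P0.ord y) ≠ 0 := zpow_ne_zero _ hπ0
  have h1 : P0.ord (y / π ^ (P0.ord y)) = 0 := by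
    rw [div_eq_mul_inv, P0.ord_mul hy (inv_ne_zero hz), P0.ord_inv, P0.ord_zpow, hπ]
    ring
  have h2 := d.v_unit (div_ne_zero hy hz) h1
  rw [map_div₀, map_div₀, map_zpow₀, map_zpow₀] at h2
  have h3 : V.valuation (β π) ^ (P0.ord y) ≠ 0 :=
    zpow_ne_zero _ ((Valuation.ne_zero_iff _).2 ((map_ne_zero β).2 hπ0))
  exact (div_eq_one_iff_eq h3).1 h2

theorem Dominates.v_pi_lt_one (d : Dominates β P0 V) {π : F} (hπ : P0.ord π = 1) :
    V.valuation (β π) < 1 := d.lt π (by rw [hπ]; exact one_pos)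

theorem Dominates.v_pi_pos (_d : Dominates β P0 V) {π : F} (hπ : P0.ord π = 1) :
    0 < V.valuation (β π) :=
  zero_lt_iff.2 ((Valuation.ne_zero_iff _).2 ((map_ne_zero β).2 (ne_zero_of_ord_eq_one hπ)))

/-- The residue field of `V` is `L`. -/
theorem Dominates.exists_residue [IsAlgClosed L] (d : Dominates β P0 V) (h : ConstExt ι β) {π : F}
    (hπ : P0.ord π = 1) {y : F'} (hy : y ∈ V) :
    ∃ c : L, V.valuation (y - algebraMap L F' c) < 1 := by
  by_contra hcon
  push Not at hcon
  have hlin : ∀ c : L, V.valuation (y - algebraMap L F' c) = 1 := fun c =>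
    le_antisymm ((V.valuation_le_one_iff _).2 (sub_mem hy (d.const_mem h c))) (hcon c)
  have htr : Transcendental L y := by
    intro halg
    obtain ⟨c, hc⟩ := exists_algebraMap_eq_of_isAlgebraic halg
    have := hlin c
    rw [hc, sub_self, map_zero] at this
    exact zero_ne_one this
  have hpoly : ∀ p : L[X], p ≠ 0 → V.valuation (aeval y p) = 1 := by
    intro p hp
    have hsp := (IsAlgClosed.splits p).eq_prod_roots
    rw [hsp, map_mul, aeval_C, map_mul, d.v_const h (leadingCoeff_ne_zero.2 hp), one_mul,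
      map_multiset_prod, map_multiset_prod, Multiset.map_map, Multiset.map_map]
    apply Multiset.prod_eq_one
    intro z hz
    rw [Multiset.mem_map] at hz
    obtain ⟨a, -, rfl⟩ := hz
    simpa using hlin a
  have hsub : ∀ z : L⟮y⟯, algebraMap L⟮y⟯ F' z ∈ V := by
    rintro ⟨z, hz⟩
    obtain ⟨r, s, rfl⟩ := (IntermediateField.mem_adjoin_simple_iff L z).1 hz
    change aeval y r / aeval y s ∈ V
    rw [← V.valuation_le_one_iff, map_div₀]
    by_cases hr : r = 0
    · simp [hr]
    by_cases hs : s = 0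
    · simp [hs]
    rw [hpoly r hr, hpoly s hs, div_one]
  obtain ⟨x₀, hx₀⟩ := h.var
  have hfd : FiniteDimensional L⟮y⟯ F' := finiteDimensional_adjoin_of_transcendental x₀ y htr
  have hall : ∀ z : F', z ∈ V := fun z =>
    mem_of_isIntegralElem V (algebraMap L⟮y⟯ F') hsub (Algebra.IsIntegral.isIntegral z)
  have h1 := (V.valuation_le_one_iff _).2 (hall (β π)⁻¹)
  rw [map_inv₀, inv_le_one₀ (d.v_pi_pos hπ)] at h1
  exact absurd (d.v_pi_lt_one hπ) (not_lt.2 h1)

variable (L) in
/-- The ring `L[β (O_P0)]`. -/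
def Rg (β : F →+* F') (P0 : Place K F) : Subalgebra L F' :=
  Algebra.adjoin L (β '' (P0.toValuationSubring : Set F))

theorem map_mem_Rg {g : F} (hg : g ∈ P0.toValuationSubring) : β g ∈ Rg L β P0 :=
  Algebra.subset_adjoin ⟨g, hg, rfl⟩

theorem Dominates.mem_of_mem_Rg (d : Dominates β P0 V) (h : ConstExt ι β) {x : F'}
    (hx : x ∈ Rg L β P0) : x ∈ V := by
  unfold Rg at hx
  induction hx using Algebra.adjoin_induction with
  | mem x hx =>
    obtain ⟨g, hg, rfl⟩ := hx
    exact d.mem g hg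
  | algebraMap c => exact d.const_mem h c
  | add x y _ _ hx hy => exact add_mem hx hy
  | mul x y _ _ hx hy => exact mul_mem hx hy

theorem isIntegralElem_of_mem_Rg (h : ConstExt ι β) {x : F'} (hx : x ∈ Rg L β P0) :
    β.IsIntegralElem x := by
  unfold Rg at hx
  induction hx using Algebra.adjoin_induction with
  | mem x hx =>
    obtain ⟨g, -, rfl⟩ := hx
    exact β.isIntegralElem_map
  | algebraMap c =>
    obtain ⟨p, hp, hc⟩ := h.integral c
    refine ⟨p.map (algebraMap K F), hp.map _, ?_⟩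
    have h1 : β.comp (algebraMap K F) = (algebraMap L F').comp ι := RingHom.ext h.comm
    rw [Polynomial.eval₂_map, h1, ← Polynomial.hom_eval₂, hc, map_zero]
  | add x y _ _ hx hy => exact RingHom.IsIntegralElem.add β hx hy
  | mul x y _ _ hx hy => exact RingHom.IsIntegralElem.mul β hx hy

/-- `x - c` is, up to a `V`-unit of `R`, divisible by `β π` in `R`. -/
def Good (V : ValuationSubring F') (β : F →+* F') (P0 : Place K F) (π : F) (x : F') : Prop :=
  ∃ c : L, ∃ s ∈ Rg L β P0, V.valuation s = 1 ∧ ∃ x' ∈ Rg L β P0,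
    s * (x - algebraMap L F' c) = β π * x'

theorem aeval_mem_Rg {z : F'} (hz : z ∈ Rg L β P0) (p : L[X]) : aeval z p ∈ Rg L β P0 := by
  have := Polynomial.aeval_subalgebra_coe p (Rg L β P0) ⟨z, hz⟩
  rw [← this]
  exact Subtype.mem _

/-- the key case: `x = β g`. -/
theorem Dominates.good_map [IsAlgClosed L] [CharZero K] (d : Dominates β P0 V) (h : ConstExt ι β)
    {π : F} (hπ : P0.ord π = 1) {g : F} (hg : g ∈ P0.toValuationSubring) :
    Good (L := L) V β P0 π (β g) := by
  obtain ⟨c, hc⟩ := d.exists_residue h hπ (d.mem g hg)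
  let _ : Algebra K L := ι.toAlgebra
  have hint : IsIntegral K c := h.integral c
  set μ := minpoly K c with hμ
  have hsep : μ.Separable := (minpoly.irreducible hint).separable
  have hder : aeval c (derivative μ) ≠ 0 := hsep.aeval_derivative_ne_zero (minpoly.aeval K c)
  have hroot : (μ.map ι).IsRoot c := by
    rw [IsRoot.def, eval_map]
    exact minpoly.aeval K c
  obtain ⟨ψ, hψ⟩ := dvd_iff_isRoot.2 hroot
  have hψc : ψ.eval c ≠ 0 := by
    have h1 : (derivative (μ.map ι)).eval c = ψ.eval c := by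
      rw [hψ, derivative_mul]
      simp
    rw [← h1, derivative_map, eval_map]
    exact hder
  obtain ⟨ψ₁, hψ₁⟩ : X - C c ∣ ψ - C (ψ.eval c) := dvd_iff_isRoot.2 (by simp)
  have hgR : β g ∈ Rg L β P0 := map_mem_Rg hg
  set s : F' := aeval (β g) ψ with hs
  have hsR : s ∈ Rg L β P0 := aeval_mem_Rg hgR ψ
  have hs1 : s = algebraMap L F' (ψ.eval c) + (β g - algebraMap L F' c) * aeval (β g) ψ₁ := by
    have h1 : ψ = C (ψ.eval c) + (X - C c) * ψ₁ := by rw [← hψ₁]; ring
    rw [hs]
    conv_lhs => rw [h1]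
    simp
  have hvs : V.valuation s = 1 := by
    have h1 : V.valuation (s - algebraMap L F' (ψ.eval c)) < V.valuation (algebraMap L F' (ψ.eval c)) := by
      rw [d.v_const h hψc, hs1, add_sub_cancel_left, map_mul]
      have h2 : V.valuation (aeval (β g) ψ₁) ≤ 1 :=
        (V.valuation_le_one_iff _).2 (d.mem_of_mem_Rg h (aeval_mem_Rg hgR ψ₁))
      calc V.valuation (β g - algebraMap L F' c) * V.valuation (aeval (β g) ψ₁)
          ≤ V.valuation (β g - algebraMap L F' c) * 1 := mul_le_mul_right h2 _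
        _ < 1 := by rw [mul_one]; exact hc
    rw [Valuation.map_eq_of_sub_lt _ h1, d.v_const h hψc]
  have hprod : s * (β g - algebraMap L F' c) = β (aeval g μ) := by
    have h1 : aeval (β g) (μ.map ι) = s * (β g - algebraMap L F' c) := by
      rw [hψ, hs]
      simp [mul_comm]
    have h2 : β.comp (algebraMap K F) = (algebraMap L F').comp ι := RingHom.ext h.comm
    rw [← h1, aeval_def, eval₂_map, ← h2, ← Polynomial.hom_eval₂, aeval_def]
  have hμg : aeval g μ ∈ P0.toValuationSubring := by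
    rw [aeval_eq_sum_range]
    refine sum_mem fun i _ => ?_
    rw [Algebra.smul_def]
    exact mul_mem (P0.algebraMap_mem' _) (pow_mem hg i)
  have hlt : V.valuation (β (aeval g μ)) < 1 := by
    rw [← hprod, map_mul, hvs, one_mul]
    exact hc
  have hπ0 := ne_zero_of_ord_eq_one hπ
  have hdiv : aeval g μ / π ∈ P0.toValuationSubring := by
    by_cases h0 : aeval g μ = 0
    · rw [h0, zero_div]; exact zero_mem _
    apply mem_of_ord_nonneg P0 (div_ne_zero h0 hπ0)
    rw [div_eq_mul_inv, P0.ord_mul h0 (inv_ne_zero hπ0), P0.ord_inv, hπ]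
    have h1 := ord_nonneg_of_mem P0 hμg
    have h2 : P0.ord (aeval g μ) ≠ 0 := by
      intro h3
      rw [d.v_unit h0 h3] at hlt
      exact lt_irrefl _ hlt
    omega
  refine ⟨c, s, hsR, hvs, β (aeval g μ / π), map_mem_Rg hdiv, ?_⟩
  rw [hprod, ← map_mul]
  congr 1
  field_simp

theorem Dominates.good [IsAlgClosed L] [CharZero K] (d : Dominates β P0 V) (h : ConstExt ι β)
    {π : F} (hπ : P0.ord π = 1) {x : F'} (hx : x ∈ Rg L β P0) : Good (L := L) V β P0 π x := by
  unfold Rg at hx
  induction hx using Algebra.adjoin_induction with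
  | mem x hx =>
    obtain ⟨g, hg, rfl⟩ := hx
    exact d.good_map h hπ hg
  | algebraMap c =>
    exact ⟨c, 1, one_mem _, map_one _, 0, zero_mem _, by simp⟩
  | add x y hxR hyR ihx ihy =>
    obtain ⟨c₁, s₁, hs₁, hv₁, x₁, hx₁, e₁⟩ := ihx
    obtain ⟨c₂, s₂, hs₂, hv₂, x₂, hx₂, e₂⟩ := ihy
    refine ⟨c₁ + c₂, s₁ * s₂, mul_mem hs₁ hs₂, by rw [map_mul, hv₁, hv₂, one_mul],
      s₂ * x₁ + s₁ * x₂, add_mem (mul_mem hs₂ hx₁) (mul_mem hs₁ hx₂), ?_⟩
    rw [map_add]
    linear_combination s₂ * e₁ + s₁ * e₂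
  | mul x y hxR hyR ihx ihy =>
    obtain ⟨c₁, s₁, hs₁, hv₁, x₁, hx₁, e₁⟩ := ihx
    obtain ⟨c₂, s₂, hs₂, hv₂, x₂, hx₂, e₂⟩ := ihy
    refine ⟨c₁ * c₂, s₁ * s₂, mul_mem hs₁ hs₂, by rw [map_mul, hv₁, hv₂, one_mul],
      s₂ * y * x₁ + algebraMap L F' c₁ * s₁ * x₂,
      add_mem (mul_mem (mul_mem hs₂ hyR) hx₁)
        (mul_mem (mul_mem (Subalgebra.algebraMap_mem _ _) hs₁) hx₂), ?_⟩
    rw [map_mul]
    linear_combination s₂ * y * e₁ + algebraMap L F' c₁ * s₁ * e₂

/-- an element of `R` of valuation `< 1` is, up to a unit, divisible by `β π` in `R`. -/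
theorem Dominates.exists_div [IsAlgClosed L] [CharZero K] (d : Dominates β P0 V)
    (h : ConstExt ι β) {π : F} (hπ : P0.ord π = 1) {x : F'} (hx : x ∈ Rg L β P0)
    (hlt : V.valuation x < 1) :
    ∃ x' ∈ Rg L β P0, V.valuation x = V.valuation (β π) * V.valuation x' := by
  obtain ⟨c, s, hs, hv, x', hx', e⟩ := d.good h hπ hx
  have hx'V : V.valuation x' ≤ 1 := (V.valuation_le_one_iff _).2 (d.mem_of_mem_Rg h hx')
  have h1 : V.valuation (x - algebraMap L F' c) < 1 := by
    have := congrArg V.valuation e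
    rw [map_mul, hv, one_mul, map_mul] at this
    rw [this]
    calc V.valuation (β π) * V.valuation x' ≤ V.valuation (β π) * 1 := mul_le_mul_right hx'V _
      _ < 1 := by rw [mul_one]; exact d.v_pi_lt_one hπ
  have hc : c = 0 := by
    by_contra hc
    have h2 : V.valuation (algebraMap L F' c) < 1 := by
      have : algebraMap L F' c = x - (x - algebraMap L F' c) := by ring
      rw [this]
      exact Valuation.map_sub_lt _ hlt h1
    rw [d.v_const h hc] at h2
    exact lt_irrefl _ h2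
  refine ⟨x', hx', ?_⟩
  have := congrArg V.valuation e
  rwa [hc, map_zero, sub_zero, map_mul, hv, one_mul, map_mul] at this

theorem Dominates.exists_pow_aux [IsAlgClosed L] [CharZero K] (d : Dominates β P0 V)
    (h : ConstExt ι β) {π : F} (hπ : P0.ord π = 1) (M : ℕ) :
    ∀ x ∈ Rg L β P0, V.valuation (β π) ^ M ≤ V.valuation x →
      ∃ n : ℕ, V.valuation x = V.valuation (β π) ^ n := by
  induction M with
  | zero =>
    intro x hx hle
    rw [pow_zero] at hle
    exact ⟨0, by
      rw [pow_zero]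
      exact le_antisymm ((V.valuation_le_one_iff _).2 (d.mem_of_mem_Rg h hx)) hle⟩
  | succ M ih =>
    intro x hx hle
    by_cases h1 : V.valuation x < 1
    · obtain ⟨x', hx', e⟩ := d.exists_div h hπ hx h1
      have h2 : V.valuation (β π) ^ M ≤ V.valuation x' := by
        rw [e, pow_succ, mul_comm] at hle
        exact le_of_mul_le_mul_left hle (d.v_pi_pos hπ)
      obtain ⟨n, hn⟩ := ih x' hx' h2
      exact ⟨n + 1, by rw [e, hn, pow_succ, mul_comm]⟩
    · exact ⟨0, by
        rw [pow_zero]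
        exact le_antisymm ((V.valuation_le_one_iff _).2 (d.mem_of_mem_Rg h hx)) (not_lt.1 h1)⟩

theorem Dominates.exists_pow [IsAlgClosed L] [CharZero K] (d : Dominates β P0 V)
    (h : ConstExt ι β) {π : F} (hπ : P0.ord π = 1) {x : F'} (hx : x ∈ Rg L β P0) (hx0 : x ≠ 0) :
    ∃ n : ℕ, V.valuation x = V.valuation (β π) ^ n := by
  obtain ⟨c, hc0, hc⟩ := exists_le_of_isIntegralElem V β (isIntegralElem_of_mem_Rg h hx) hx0
    ((V.valuation_le_one_iff _).2 (d.mem_of_mem_Rg h hx))
  rw [d.v_eq_zpow hπ hc0] at hc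
  apply d.exists_pow_aux h hπ (P0.ord c).toNat x hx
  refine le_trans ?_ hc
  rw [← zpow_natCast, zpow_le_zpow_iff_right_of_lt_one₀ (d.v_pi_pos hπ) (d.v_pi_lt_one hπ)]
  exact Int.self_le_toNat _

/-- clearing denominators: `β π ^ k * A ∈ R` for `A` in the `L`-span of `β F`. -/
theorem exists_pow_mul_mem_Rg {π : F} (hπ : P0.ord π = 1) {A : F'}
    (hA : A ∈ Submodule.span L (Set.range β)) : ∃ k : ℕ, β π ^ k * A ∈ Rg L β P0 := by
  have hπ0 := ne_zero_of_ord_eq_one hπ
  have hπR : β π ∈ Rg L β P0 :=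
    map_mem_Rg (mem_of_ord_nonneg P0 hπ0 (by rw [hπ]; exact zero_le_one))
  induction hA using Submodule.span_induction with
  | mem x hx =>
    obtain ⟨f, rfl⟩ := hx
    by_cases hf : f = 0
    · exact ⟨0, by rw [hf, map_zero, mul_zero]; exact zero_mem _⟩
    refine ⟨(-P0.ord f).toNat, ?_⟩
    rw [← map_pow, ← map_mul]
    apply map_mem_Rg
    apply mem_of_ord_nonneg P0 (mul_ne_zero (pow_ne_zero _ hπ0) hf)
    rw [P0.ord_mul (pow_ne_zero _ hπ0) hf, ← zpow_natCast, P0.ord_zpow, hπ, mul_one]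
    have := Int.self_le_toNat (-P0.ord f)
    omega
  | zero => exact ⟨0, by rw [mul_zero]; exact zero_mem _⟩
  | add x y _ _ hx hy =>
    obtain ⟨k₁, h₁⟩ := hx
    obtain ⟨k₂, h₂⟩ := hy
    refine ⟨k₁ + k₂, ?_⟩
    have e : β π ^ (k₁ + k₂) * (x + y) = β π ^ k₂ * (β π ^ k₁ * x) + β π ^ k₁ * (β π ^ k₂ * y) := by
      rw [pow_add]; ring
    rw [e]
    exact add_mem (mul_mem (pow_mem hπR _) h₁) (mul_mem (pow_mem hπR _) h₂)
  | smul c x _ hx =>
    obtain ⟨k, hk⟩ := hx
    refine ⟨k, ?_⟩
    rw [mul_smul_comm]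
    exact Subalgebra.smul_mem _ hk c

theorem Dominates.exists_zpow_of_span [IsAlgClosed L] [CharZero K] (d : Dominates β P0 V)
    (h : ConstExt ι β) {π : F} (hπ : P0.ord π = 1) {A : F'}
    (hA : A ∈ Submodule.span L (Set.range β)) (hA0 : A ≠ 0) :
    ∃ n : ℤ, V.valuation A = V.valuation (β π) ^ n := by
  obtain ⟨k, hk⟩ := exists_pow_mul_mem_Rg hπ hA
  have hπ0 : β π ≠ 0 := (map_ne_zero β).2 (ne_zero_of_ord_eq_one hπ)
  obtain ⟨n, hn⟩ := d.exists_pow h hπ hk (mul_ne_zero (pow_ne_zero _ hπ0) hA0)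
  refine ⟨(n : ℤ) - k, ?_⟩
  have hγ : V.valuation (β π) ≠ 0 := (d.v_pi_pos hπ).ne'
  rw [map_mul, map_pow] at hn
  rw [zpow_sub₀ hγ, zpow_natCast, zpow_natCast, ← hn, mul_div_cancel_left₀ _ (pow_ne_zero _ hγ)]

/-- the value group of `V` is generated by `v (β π)`. -/
theorem Dominates.exists_zpow [IsAlgClosed L] [CharZero K] (d : Dominates β P0 V)
    (h : ConstExt ι β) {π : F} (hπ : P0.ord π = 1) {y : F'} (hy : y ≠ 0) :
    ∃ n : ℤ, V.valuation y = V.valuation (β π) ^ n := by
  obtain ⟨A, hA, B, hB, hB0, rfl⟩ := h.span y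
  have hA0 : A ≠ 0 := by
    rintro rfl
    rw [zero_div] at hy
    exact hy rfl
  obtain ⟨a, ha⟩ := d.exists_zpow_of_span h hπ hA hA0
  obtain ⟨b, hb⟩ := d.exists_zpow_of_span h hπ hB hB0
  exact ⟨a - b, by rw [map_div₀, ha, hb, zpow_sub₀ (d.v_pi_pos hπ).ne']⟩

end Main

/-- **Algebraic constant field extensions: every place extends, with ramification index one.** -/
theorem exists_place_above [IsAlgClosed L] [CharZero K] {ι : K →+* L} {β : F →+* F'}
    (h : ConstExt ι β) (P0 : Place K F) :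
    ∃ P' : Place L F', ∀ y : F, P'.ord (β y) = P0.ord y := by
  obtain ⟨V, d⟩ := exists_dominates β P0
  obtain ⟨π', hπ'⟩ := IsDiscreteValuationRing.exists_irreducible P0.toValuationSubring
  set π : F := (π' : F) with hπdef
  have hπ : P0.ord π = 1 := P0.ord_coe_irreducible hπ'
  have hπ0 : β π ≠ 0 := (map_ne_zero β).2 (ne_zero_of_ord_eq_one hπ)
  set γ := V.valuation (β π) with hγ
  have hγ0 : 0 < γ := d.v_pi_pos hπ
  have hγ1 : γ < 1 := d.v_pi_lt_one hπ
  have hle : ∀ {a b : ℤ}, γ ^ a ≤ γ ^ b ↔ b ≤ a := zpow_le_zpow_iff_right_of_lt_one₀ hγ0 hγ1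
  have hinj : ∀ {a b : ℤ}, γ ^ a = γ ^ b → a = b := fun e =>
    le_antisymm (hle.1 e.ge) (hle.1 e.le)
  have key : ∀ y : F', ∃ n : ℤ, y ≠ 0 → V.valuation y = γ ^ n := by
    intro y
    by_cases hy : y = 0
    · exact ⟨0, fun h => absurd hy h⟩
    · obtain ⟨n, hn⟩ := d.exists_zpow h hπ hy
      exact ⟨n, fun _ => hn⟩
  choose w hw using key
  let W : OrdFun L F' :=
    { ord := w
      ord_mul := by
        intro f g hf hg
        apply hinj
        rw [← hw _ (mul_ne_zero hf hg), map_mul, hw f hf, hw g hg, zpow_add₀ hγ0.ne']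
      ord_add := by
        intro f g hf hg hfg
        have h1 := V.valuation.map_add f g
        rw [hw _ hfg, hw f hf, hw g hg, le_max_iff, hle, hle] at h1
        exact min_le_iff.2 h1
      ord_algebraMap := by
        intro a ha
        apply hinj
        rw [← hw _ (by simpa using ha), d.v_const h ha, zpow_zero] }
  have hWπ : W.ord (β π) = 1 := by
    apply hinj
    rw [zpow_one]
    exact (hw _ hπ0).symm
  obtain ⟨P', M, hM, hP'⟩ := Fermat.Agent.GAL.Tors.Dict.exists_place_of_ordFun W (β π) hπ0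
    (by rw [hWπ]; exact one_ne_zero)
  have hM1 : M = 1 := by
    have h1 := hP' (β π) hπ0
    rw [hWπ] at h1
    exact Int.eq_one_of_dvd_one hM.le ⟨_, h1⟩
  refine ⟨P', fun y => ?_⟩
  by_cases hy : y = 0
  · rw [hy, map_zero, Place.ord_zero, Place.ord_zero]
  have hy' : β y ≠ 0 := (map_ne_zero β).2 hy
  have h1 := hP' (β y) hy'
  rw [hM1, one_mul] at h1
  rw [← h1]
  apply hinj
  change γ ^ w (β y) = _
  rw [← hw _ hy', d.v_eq_zpow hπ hy]

/-- Descent of Kummer divisibility along an algebraic constant field extension. -/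
theorem dvd_ord_of_forall_dvd [IsAlgClosed L] [CharZero K] {ι : K →+* L} {β : F →+* F'}
    (h : ConstExt ι β) (m : ℤ) (f : F) (hf : ∀ P' : Place L F', m ∣ P'.ord (β f))
    (P0 : Place K F) : m ∣ P0.ord f := by
  obtain ⟨P', hP'⟩ := exists_place_above h P0
  rw [← hP']
  exact hf P'

end

end Fermat.Agent.S36R.Unram
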